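/-
Cluster J (S59), J3d, arithmetic input for "strict-ordinary is a deformation condition"
(owner: helper31).

* `exists_inertia_inv_on_roots`: for an odd prime `p` and a valuation subring `P` of `ℚ̄` over `p`
  there is `σ₀` in the inertia group of `P` acting on `μ_p` by inversion (so that the mod `p`
  cyclotomic character is nontrivial on inertia at `p`).
* `exists_cycExp`, `cycExp_modEq`: existence and uniqueness mod `p ^ n` of cyclotomic exponents.
-/
import Fermat.Agent.Lib.Minkowski.InertiaLift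
import Fermat.Agent.Lib.Cyclo.ModCharGlobal
import Fermat.Agent.Lib.FrobTrace.Residue

set_option autoImplicit false
set_option linter.style.haveILetI false
set_option linter.unnecessarySimpa false
set_option linter.unusedSectionVars false

namespace Fermat.Agent.S59.SOArith

open Fermat.Agent.Cyclo IntermediateField

variable (p : ℕ) [Fact p.Prime]

/-- `p`-th roots of unity are `≡ 1` modulo the maximal ideal of a valuation subring over `p`. -/
theorem root_sub_one_mem_nonunits (P : ValuationSubring Qb) (hP : P.LiesOverPrime p)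
    {ζ : Qb} (hζ : ζ ^ p = 1) : ζ - 1 ∈ P.nonunits := by
  have hζP : ζ ∈ P := pow_eq_one_mem P (Fact.out : p.Prime).ne_zero hζ
  haveI : CharP (IsLocalRing.ResidueField P) p := FrobTrace.charP_residueField P hP
  have h2 : (IsLocalRing.residue P ((⟨ζ, hζP⟩ : P) - 1)) ^ p = 0 := by
    rw [map_sub, map_one, sub_pow_char, one_pow, ← map_pow]
    have : (⟨ζ, hζP⟩ : P) ^ p = 1 := Subtype.ext (by simpa using hζ)
    rw [this, map_one, sub_self]
  have h1 : IsLocalRing.residue P ((⟨ζ, hζP⟩ : P) - 1) = 0 := pow_eq_zero_iff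
    (Fact.out : p.Prime).ne_zero |>.mp h2
  rw [IsLocalRing.residue_eq_zero_iff] at h1
  have := (P.mem_nonunits_iff_exists_mem_maximalIdeal).2 ⟨((⟨ζ, hζP⟩ : P) - 1).2, h1⟩
  simpa using this

/-- Complex conjugation is congruent to the identity modulo `𝔪_P` on `ℤ[ζ_p]`. -/
theorem conj_sub_mem_nonunits (P : ValuationSubring Qb) (hP : P.LiesOverPrime p)
    {ζ : Qb} (hζ : ζ ^ p = 1) {y : Qb} (hy : y ∈ Algebra.adjoin ℤ ({ζ} : Set Qb)) :
    y ∈ P ∧ complexConjugation y ∈ P ∧ complexConjugation y - y ∈ P.nonunits := by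
  haveI : NeZero p := ⟨(Fact.out : p.Prime).ne_zero⟩
  have hp0 : p ≠ 0 := (Fact.out : p.Prime).ne_zero
  induction hy using Algebra.adjoin_induction with
  | mem x hx =>
    rw [Set.mem_singleton_iff] at hx
    subst hx
    have hinv : (x⁻¹) ^ p = 1 := by rw [inv_pow, hζ, inv_one]
    rw [complexConjugation_root p hζ]
    refine ⟨pow_eq_one_mem P hp0 hζ, pow_eq_one_mem P hp0 hinv, ?_⟩
    have : x⁻¹ - x = (x⁻¹ - 1) + -(x - 1) := by ring
    rw [this]
    exact nonunits_add_mem P (root_sub_one_mem_nonunits p P hP hinv)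
      (nonunits_neg_mem P (root_sub_one_mem_nonunits p P hP hζ))
  | algebraMap r =>
    have h1 : complexConjugation (algebraMap ℤ Qb r) = algebraMap ℤ Qb r := by
      simp
    rw [h1, sub_self]
    have hr : algebraMap ℤ Qb r ∈ P := by
      simpa using intCast_mem P r
    exact ⟨hr, hr, zero_mem_nonunits P⟩
  | add x y _ _ hx hy =>
    refine ⟨P.add_mem _ _ hx.1 hy.1, ?_, ?_⟩
    · rw [map_add]; exact P.add_mem _ _ hx.2.1 hy.2.1
    · have : complexConjugation (x + y) - (x + y) =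
          (complexConjugation x - x) + (complexConjugation y - y) := by
        rw [map_add]; ring
      rw [this]
      exact nonunits_add_mem P hx.2.2 hy.2.2
  | mul x y _ _ hx hy =>
    refine ⟨P.mul_mem _ _ hx.1 hy.1, ?_, ?_⟩
    · rw [map_mul]; exact P.mul_mem _ _ hx.2.1 hy.2.1
    · have : complexConjugation (x * y) - (x * y) =
          (complexConjugation x - x) * complexConjugation y + (complexConjugation y - y) * x := by
        rw [map_mul]; ring
      rw [this]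
      exact nonunits_add_mem P (nonunits_mul_mem P hx.2.2 hy.2.1)
        (nonunits_mul_mem P hy.2.2 hx.1)

/-- **Inertia at `p` moves `μ_p`** (`p` odd): some element of the inertia group at `P | p` acts on
the `p`-th roots of unity by inversion. -/
theorem exists_inertia_inv_on_roots (P : ValuationSubring Qb) (hP : P.LiesOverPrime p) :
    ∃ σ₀ ∈ P.inertiaSubgroupIn ℚ, ∀ μ : Qb, μ ^ p = 1 → σ₀ μ = μ⁻¹ := by
  haveI : NeZero p := ⟨(Fact.out : p.Prime).ne_zero⟩
  obtain ⟨ζ, hζ⟩ := HasEnoughRootsOfUnity.exists_primitiveRoot Qb p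
  haveI : Algebra.IsIntegral ℚ Qb := (AlgebraicClosure.isAlgebraic ℚ).isIntegral
  let L : IntermediateField ℚ Qb := ℚ⟮ζ⟯
  haveI hcyc : IsCyclotomicExtension {p} ℚ L := hζ.intermediateField_adjoin_isCyclotomicExtension ℚ
  haveI : FiniteDimensional ℚ L := IsCyclotomicExtension.finiteDimensional {p} ℚ L
  haveI : IsGalois ℚ L := IsCyclotomicExtension.isGalois {p} ℚ L
  have hζmem : ζ ∈ L := mem_adjoin_simple_self ℚ ζ
  let ζL : L := ⟨ζ, hζmem⟩
  have hζL : IsPrimitiveRoot ζL p := by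
    have : IsPrimitiveRoot ((algebraMap L Qb) ζL) p := hζ
    exact IsPrimitiveRoot.of_map_of_injective (f := algebraMap L Qb) this
      (FaithfulSMul.algebraMap_injective L Qb)
  have hic : IsIntegralClosure (Algebra.adjoin ℤ ({ζL} : Set L)) ℤ L :=
    IsCyclotomicExtension.Rat.isIntegralClosure_adjoin_singleton_of_prime hζL
  let s : L ≃ₐ[ℚ] L := AlgEquiv.restrictNormalHom L complexConjugation
  have hs : ∀ x : L, ((s x : L) : Qb) = complexConjugation (x : Qb) := fun x =>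
    AlgEquiv.restrictNormal_commutes complexConjugation L x
  have hcong : ∀ x : L, IsIntegral ℤ x → ((s x : L) : Qb) - (x : Qb) ∈ P.nonunits := by
    intro x hx
    obtain ⟨y, hy⟩ := hic.isIntegral_iff.mp hx
    have hxmem : (x : Qb) ∈ Algebra.adjoin ℤ ({ζ} : Set Qb) := by
      have h1 : (x : L) ∈ Algebra.adjoin ℤ ({ζL} : Set L) := by
        rw [← hy]; exact y.2
      have h2 : (L.val.restrictScalars ℤ) x ∈
          (Algebra.adjoin ℤ ({ζL} : Set L)).map (L.val.restrictScalars ℤ) :=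
        Subalgebra.mem_map.mpr ⟨x, h1, rfl⟩
      rw [AlgHom.map_adjoin, Set.image_singleton] at h2
      exact h2
    rw [hs]
    exact (conj_sub_mem_nonunits p P hP hζ.pow_eq_one hxmem).2.2
  obtain ⟨σ₀, hσ₀, hres⟩ := Fermat.Agent.Minkowski.exists_mem_inertiaSubgroupIn_restrict
    P p (Fact.out : p.Prime) hP L s hcong
  refine ⟨σ₀, hσ₀, fun μ hμ => ?_⟩
  obtain ⟨k, -, rfl⟩ := hζ.eq_pow_of_pow_eq_one hμ
  have h1 : σ₀ ζ = ζ⁻¹ := by
    have h2 : ((AlgEquiv.restrictNormalHom L σ₀ ζL : L) : Qb) = σ₀ ζ :=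
      AlgEquiv.restrictNormal_commutes σ₀ L ζL
    rw [← h2, hres, hs]
    exact complexConjugation_root p hζ.pow_eq_one
  rw [map_pow, h1, inv_pow]

/-- Existence of cyclotomic exponents at level `p ^ n`. -/
theorem exists_cycExp (σ : GQ) (n : ℕ) :
    ∃ a : ℕ, ∀ μ : Qb, μ ^ p ^ n = 1 → σ μ = μ ^ a := by
  haveI : NeZero (p ^ n) := ⟨pow_ne_zero n (Fact.out : p.Prime).ne_zero⟩
  exact ⟨_, fun μ hμ => modChar_spec (p ^ n) σ hμ⟩

/-- Cyclotomic exponents at level `p ^ n` are unique modulo `p ^ n`. -/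
theorem cycExp_modEq (σ : GQ) (n : ℕ) {a a' : ℕ}
    (ha : ∀ μ : Qb, μ ^ p ^ n = 1 → σ μ = μ ^ a)
    (ha' : ∀ μ : Qb, μ ^ p ^ n = 1 → σ μ = μ ^ a') : a ≡ a' [MOD p ^ n] := by
  haveI : NeZero (p ^ n) := ⟨pow_ne_zero n (Fact.out : p.Prime).ne_zero⟩
  have h1 := modChar_eq_natCast_of_pow (p ^ n) σ a ha
  have h2 := modChar_eq_natCast_of_pow (p ^ n) σ a' ha'
  rw [h1] at h2
  exact (ZMod.natCast_eq_natCast_iff a a' (p ^ n)).mp h2

/-- A cyclotomic exponent at level `p ^ n` is one at every lower level. -/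
theorem cycExp_of_le (σ : GQ) {m n : ℕ} (hmn : m ≤ n) {a : ℕ}
    (ha : ∀ μ : Qb, μ ^ p ^ n = 1 → σ μ = μ ^ a) :
    ∀ μ : Qb, μ ^ p ^ m = 1 → σ μ = μ ^ a := by
  intro μ hμ
  apply ha
  obtain ⟨k, rfl⟩ := Nat.exists_eq_add_of_le hmn
  rw [pow_add, pow_mul, hμ, one_pow]

/-- The exponent of inversion on `μ_p` is not `≡ 1 mod p` (`p` odd). -/
theorem inv_exponent_ne_one (hp2 : p ≠ 2) {σ : GQ} (hσ : ∀ μ : Qb, μ ^ p = 1 → σ μ = μ⁻¹)
    {a : ℕ} (ha : ∀ μ : Qb, μ ^ p ^ 1 = 1 → σ μ = μ ^ a) : ¬ (p : ℤ) ∣ (a : ℤ) - 1 := by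
  haveI : NeZero p := ⟨(Fact.out : p.Prime).ne_zero⟩
  have hp : p.Prime := Fact.out
  intro hdvd
  obtain ⟨ζ, hζ⟩ := HasEnoughRootsOfUnity.exists_primitiveRoot Qb p
  have h1 : ζ ^ p ^ 1 = 1 := by rw [pow_one]; exact hζ.pow_eq_one
  have h2 : ζ ^ a = ζ⁻¹ := by rw [← ha ζ h1, hσ ζ hζ.pow_eq_one]
  have hζ0 : ζ ≠ 0 := hζ.ne_zero (NeZero.ne p)
  -- `ζ ^ a = ζ` since `a ≡ 1 mod p`
  have h3 : ζ ^ a = ζ := by
    have h4 : (ζ : Qb) ^ ((a : ℤ) - 1) = 1 := by
      obtain ⟨c, hc⟩ := hdvd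
      rw [hc, zpow_mul, zpow_natCast, hζ.pow_eq_one, one_zpow]
    have h5 : (ζ : Qb) ^ ((a : ℤ) - 1) = ζ ^ a * ζ⁻¹ := by
      rw [zpow_sub₀ hζ0, zpow_natCast, zpow_one, div_eq_mul_inv]
    rw [h5] at h4
    have := congrArg (· * ζ) h4
    simpa [mul_assoc, inv_mul_cancel₀ hζ0] using this
  have h6 : ζ ^ 2 = 1 := by
    have : ζ = ζ⁻¹ := h3.symm.trans h2
    calc ζ ^ 2 = ζ * ζ := sq ζ
      _ = ζ * ζ⁻¹ := by rw [← this]
      _ = 1 := mul_inv_cancel₀ hζ0
  have h7 : p ∣ 2 := hζ.dvd_of_pow_eq_one 2 h6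
  have h8 : p ≤ 2 := Nat.le_of_dvd (by norm_num) h7
  have h9 : 2 ≤ p := hp.two_le
  exact hp2 (le_antisymm h8 h9)

end Fermat.Agent.S59.SOArith
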