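/-
Cluster J (S59), J3: toolkit for the deformation-condition axioms over a GENERAL local base ring `𝒪`
(no DVR / finiteness hypothesis): the quotients `A ⧸ 𝔪^k` of a Noetherian local `𝒪`-algebra are
Artinian test algebras, Krull's intersection theorem in the form `⋂ (I + 𝔪^k) = I`, nilpotency of the
maximal ideal of an Artinian test algebra.  Owner: helper77.
-/
import Mathlib
import Fermat.Prelude.Def_GaloisRep_DeformationCondition

set_option autoImplicit false
set_option linter.unusedSectionVars false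
set_option linter.style.haveILetI false

namespace Fermat.Agent.S59.TestQuot

open IsLocalRing GaloisRep

variable {𝒪 : Type} [CommRing 𝒪] [IsLocalRing 𝒪]

/-- A nonunit is mapped to a nonunit by a local homomorphism. -/
theorem map_mem_maximalIdeal {A B : Type} [CommRing A] [IsLocalRing A] [CommRing B] [IsLocalRing B]
    (φ : A →+* B) (hφ : IsLocalHom φ) {a : A} (ha : a ∈ maximalIdeal A) :
    φ a ∈ maximalIdeal B := by
  rw [IsLocalRing.mem_maximalIdeal, mem_nonunits_iff] at ha ⊢
  intro hu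
  exact ha (hφ.map_nonunit a hu)

/-- If the image of `a` is a nonunit, then `a` is a nonunit. -/
theorem mem_maximalIdeal_of_map {A B : Type} [CommRing A] [IsLocalRing A] [CommRing B]
    [IsLocalRing B] (φ : A →+* B) {a : A} (ha : φ a ∈ maximalIdeal B) :
    a ∈ maximalIdeal A := by
  rw [IsLocalRing.mem_maximalIdeal, mem_nonunits_iff] at ha ⊢
  intro hu
  exact ha (hu.map φ)

/-- The maximal ideal of an Artinian local ring is nilpotent. -/
theorem exists_pow_maximalIdeal_eq_bot (A : Type) [CommRing A] [IsLocalRing A]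
    [IsArtinianRing A] : ∃ n : ℕ, maximalIdeal A ^ n = ⊥ := by
  obtain ⟨n, hn⟩ := IsArtinianRing.isNilpotent_jacobson_bot (R := A)
  rw [IsLocalRing.jacobson_eq_maximalIdeal _ bot_ne_top] at hn
  exact ⟨n, hn⟩

/-- In an Artinian local ring, an element of the maximal ideal is nilpotent. -/
theorem exists_pow_eq_zero (A : Type) [CommRing A] [IsLocalRing A] [IsArtinianRing A]
    {a : A} (ha : a ∈ maximalIdeal A) : ∃ n : ℕ, a ^ n = 0 := by
  obtain ⟨n, hn⟩ := exists_pow_maximalIdeal_eq_bot A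
  refine ⟨n, ?_⟩
  have : a ^ n ∈ maximalIdeal A ^ n := Ideal.pow_mem_pow ha n
  rw [hn] at this
  exact this

/-- `𝔪^k ≠ ⊤` for `k ≠ 0`. -/
theorem maximalIdeal_pow_ne_top (A : Type) [CommRing A] [IsLocalRing A] {k : ℕ} (hk : k ≠ 0) :
    maximalIdeal A ^ k ≠ ⊤ := by
  intro h
  have hle : maximalIdeal A ^ k ≤ maximalIdeal A := Ideal.pow_le_self hk
  rw [h] at hle
  exact (IsLocalRing.maximalIdeal.isMaximal A).ne_top (top_le_iff.1 hle)

/-- A proper quotient of a local ring is local. -/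
theorem isLocalRing_quotient (A : Type) [CommRing A] [IsLocalRing A] (I : Ideal A)
    (hI : I ≠ ⊤) : IsLocalRing (A ⧸ I) :=
  haveI : Nontrivial (A ⧸ I) := Ideal.Quotient.nontrivial_iff.mpr hI
  IsLocalRing.of_surjective' (Ideal.Quotient.mk I) Ideal.Quotient.mk_surjective

/-- The quotient map onto a local quotient is a local homomorphism. -/
theorem isLocalHom_mk (A : Type) [CommRing A] [IsLocalRing A] (I : Ideal A)
    [Nontrivial (A ⧸ I)] : IsLocalHom (Ideal.Quotient.mk I) :=
  IsLocalHom.of_surjective (Ideal.Quotient.mk I) Ideal.Quotient.mk_surjective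

/-- A quotient `A ⧸ I` with `𝔪^k ≤ I ≠ ⊤` of a Noetherian local ring is Artinian. -/
theorem isArtinianRing_quotient (A : Type) [CommRing A] [IsLocalRing A] [IsNoetherianRing A]
    (I : Ideal A) (hI : I ≠ ⊤) {k : ℕ} (hk : maximalIdeal A ^ k ≤ I) :
    IsArtinianRing (A ⧸ I) := by
  haveI : IsLocalRing (A ⧸ I) := isLocalRing_quotient A I hI
  rw [isArtinianRing_iff_isNilpotent_maximalIdeal]
  refine ⟨k, ?_⟩
  rw [Ideal.zero_eq_bot, eq_bot_iff]
  -- the maximal ideal of the quotient is the image of the maximal ideal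
  have hmap : maximalIdeal (A ⧸ I) ≤ (maximalIdeal A).map (Ideal.Quotient.mk I) := by
    intro y hy
    obtain ⟨a, rfl⟩ := Ideal.Quotient.mk_surjective y
    exact Ideal.mem_map_of_mem _ (mem_maximalIdeal_of_map (Ideal.Quotient.mk I) hy)
  calc maximalIdeal (A ⧸ I) ^ k ≤ ((maximalIdeal A).map (Ideal.Quotient.mk I)) ^ k :=
        Ideal.pow_right_mono hmap k
    _ = (maximalIdeal A ^ k).map (Ideal.Quotient.mk I) := (Ideal.map_pow _ _ _).symm
    _ ≤ I.map (Ideal.Quotient.mk I) := Ideal.map_mono hk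
    _ = ⊥ := Ideal.map_quotient_self I

/-- Quotients of local `𝒪`-algebras with local structure map and `𝒪 → A/𝔪` onto, by an ideal
`𝔪^k ≤ I ≠ ⊤`, are Artinian test algebras. -/
theorem isArtinianTestAlgebra_quotient (A : Type) [CommRing A] [IsLocalRing A]
    [IsNoetherianRing A] [Algebra 𝒪 A] (h1 : IsLocalHom (algebraMap 𝒪 A))
    (h2 : Function.Surjective (residue A ∘ algebraMap 𝒪 A)) (I : Ideal A) (hI : I ≠ ⊤)
    [IsLocalRing (A ⧸ I)] {k : ℕ} (hk : maximalIdeal A ^ k ≤ I) :
    IsArtinianTestAlgebra 𝒪 (A ⧸ I) := by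
  haveI : Nontrivial (A ⧸ I) := Ideal.Quotient.nontrivial_iff.mpr hI
  have hq : IsLocalHom (Ideal.Quotient.mk I) := isLocalHom_mk A I
  refine ⟨⟨fun a ha => ?_⟩, ?_, isArtinianRing_quotient A I hI hk⟩
  · have h : IsUnit (Ideal.Quotient.mk I (algebraMap 𝒪 A a)) := ha
    exact h1.map_nonunit a (hq.map_nonunit _ h)
  · intro y
    obtain ⟨b, rfl⟩ := IsLocalRing.residue_surjective y
    obtain ⟨a, rfl⟩ := Ideal.Quotient.mk_surjective b
    obtain ⟨c, hc⟩ := h2 (residue A a)
    refine ⟨c, ?_⟩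
    have hc' : algebraMap 𝒪 A c - a ∈ maximalIdeal A := by
      rw [← IsLocalRing.residue_eq_zero_iff, map_sub, sub_eq_zero]
      exact hc
    have hmem := map_mem_maximalIdeal (Ideal.Quotient.mk I) hq hc'
    rw [map_sub, ← IsLocalRing.residue_eq_zero_iff, map_sub, sub_eq_zero] at hmem
    exact hmem

/-- Krull's intersection theorem: in a Noetherian local ring, `⋂ₖ (I + 𝔪^k) = I`. -/
theorem mem_of_forall_mem_sup_pow (A : Type) [CommRing A] [IsLocalRing A] [IsNoetherianRing A]
    (I : Ideal A) {x : A} (hx : ∀ k : ℕ, x ∈ I ⊔ maximalIdeal A ^ k) : x ∈ I := by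
  have hbot := Ideal.iInf_pow_smul_eq_bot_of_le_jacobson (M := A ⧸ I) (maximalIdeal A)
    (IsLocalRing.maximalIdeal_le_jacobson _)
  have hmem : (Ideal.Quotient.mk I x : A ⧸ I) ∈
      (⨅ i : ℕ, maximalIdeal A ^ i • ⊤ : Submodule A (A ⧸ I)) := by
    rw [Submodule.mem_iInf]
    intro k
    obtain ⟨i, hi, y, hy, rfl⟩ := Submodule.mem_sup.mp (hx k)
    have h0 : (Ideal.Quotient.mk I (i + y) : A ⧸ I) = y • (1 : A ⧸ I) := by
      rw [map_add, Ideal.Quotient.eq_zero_iff_mem.mpr hi, zero_add, Algebra.smul_def, mul_one]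
      rfl
    rw [h0]
    exact Submodule.smul_mem_smul hy Submodule.mem_top
  rw [hbot, Submodule.mem_bot] at hmem
  exact Ideal.Quotient.eq_zero_iff_mem.mp hmem

/-- Krull's intersection theorem, `I = ⊥`. -/
theorem eq_zero_of_forall_mem_pow (A : Type) [CommRing A] [IsLocalRing A] [IsNoetherianRing A]
    {x : A} (hx : ∀ k : ℕ, x ∈ maximalIdeal A ^ k) : x = 0 := by
  have := mem_of_forall_mem_sup_pow A ⊥ (x := x) (fun k => by rw [bot_sup_eq]; exact hx k)
  exact (Submodule.mem_bot A).mp this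

end Fermat.Agent.S59.TestQuot
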