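/-
Cluster J (S59), J3d, linear algebra for "strict-ordinary is a deformation condition"
(owner: helper31).

The strict-ordinary datum at a valuation subring `P | p` (`SOAt`) is rewritten in coordinates with
respect to a basis `w` whose first vector spans the line (`SOTri`): lower-left entry `0` on the
decomposition group, lower-right entry `1` on inertia, and the cyclotomic relation `CycRel`
between the diagonal entries.  These are (almost) equational, whence base change and descent.
-/
import Fermat.Agent.S59.Conditions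
import Fermat.Agent.S59.DefCond.StrictOrdArith

set_option autoImplicit false
set_option linter.style.haveILetI false
set_option linter.unusedSectionVars false
set_option linter.unusedVariables false

namespace Fermat.Agent.S59.SO

open Fermat.Agent.Cyclo TensorProduct IsLocalRing

/-! ### The cyclotomic relation -/

/-- The relation `x ≡ χ_cyc(σ) z` modulo every `p ^ n`. -/
def CycRel (A : Type) [CommRing A] (p : ℕ) (σ : GQ) (x z : A) : Prop :=
  ∀ (n a : ℕ), (∀ μ : Qb, μ ^ p ^ n = 1 → σ μ = μ ^ a) →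
    x - (a : A) * z ∈ Ideal.span {((p ^ n : ℕ) : A)}

theorem CycRel.map {A B : Type} [CommRing A] [CommRing B] (φ : A →+* B) {p : ℕ} {σ : GQ}
    {x z : A} (h : CycRel A p σ x z) : CycRel B p σ (φ x) (φ z) := by
  intro n a ha
  have h1 := Ideal.mem_map_of_mem φ (h n a ha)
  rw [Ideal.map_span, Set.image_singleton, map_natCast, map_sub, map_mul, map_natCast] at h1
  exact h1

theorem natCast_sub_mem_span_of_modEq {A : Type} [CommRing A] {a b m : ℕ}
    (h : a ≡ b [MOD m]) : (a : A) - (b : A) ∈ Ideal.span {(m : A)} := by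
  obtain ⟨c, hc⟩ := (Nat.modEq_iff_dvd.mp h)
  rw [Ideal.mem_span_singleton']
  refine ⟨-(c : A), ?_⟩
  have h1 : ((b : ℤ) : A) - ((a : ℤ) : A) = ((m : ℤ) : A) * ((c : ℤ) : A) := by
    rw [← Int.cast_sub, hc, Int.cast_mul]
  simp only [Int.cast_natCast] at h1
  linear_combination h1

/-- If `p ^ N = 0` in `A`, the cyclotomic relation is the single equation `x = a_N z`. -/
theorem cycRel_iff_of_pow_eq_zero {A : Type} [CommRing A] {p : ℕ} [Fact p.Prime] {N : ℕ}
    (hN : ((p ^ N : ℕ) : A) = 0) (σ : GQ) {aN : ℕ}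
    (haN : ∀ μ : Qb, μ ^ p ^ N = 1 → σ μ = μ ^ aN) (x z : A) :
    CycRel A p σ x z ↔ x = (aN : A) * z := by
  constructor
  · intro h
    have h1 := h N aN haN
    rw [hN, Ideal.span_singleton_zero, Ideal.mem_bot, sub_eq_zero] at h1
    exact h1
  · intro h n a ha
    have key : (aN : A) - (a : A) ∈ Ideal.span {((p ^ n : ℕ) : A)} := by
      rcases le_total n N with hle | hle
      · exact natCast_sub_mem_span_of_modEq
          (SOArith.cycExp_modEq p σ n (SOArith.cycExp_of_le p σ hle haN) ha)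
      · have h1 : (aN : A) - (a : A) ∈ Ideal.span {((p ^ N : ℕ) : A)} :=
          natCast_sub_mem_span_of_modEq
            (SOArith.cycExp_modEq p σ N haN (SOArith.cycExp_of_le p σ hle ha))
        rw [hN, Ideal.span_singleton_zero, Ideal.mem_bot] at h1
        rw [h1]
        exact Ideal.zero_mem _
    have h2 : x - (a : A) * z = ((aN : A) - (a : A)) * z := by rw [h]; ring
    rw [h2]
    exact Ideal.mul_mem_right _ _ key

/-! ### Coordinates with respect to a basis indexed by `Fin 2` -/

section Coord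

variable {A : Type} [CommRing A] {V : Type} [AddCommGroup V] [Module A V]

theorem eq_repr_smul_add (w : Module.Basis (Fin 2) A V) (v : V) :
    v = w.repr v 0 • w 0 + w.repr v 1 • w 1 := by
  conv_lhs => rw [← w.sum_repr v]
  rw [Fin.sum_univ_two]

theorem repr_self_zero_zero (w : Module.Basis (Fin 2) A V) : w.repr (w 0) 0 = 1 := by
  rw [w.repr_self]; simp

theorem repr_self_zero_one (w : Module.Basis (Fin 2) A V) : w.repr (w 0) 1 = 0 := by
  rw [w.repr_self]; simp

theorem repr_self_one_zero (w : Module.Basis (Fin 2) A V) : w.repr (w 1) 0 = 0 := by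
  rw [w.repr_self]; simp

theorem repr_self_one_one (w : Module.Basis (Fin 2) A V) : w.repr (w 1) 1 = 1 := by
  rw [w.repr_self]; simp

theorem mem_span_iff_repr_one (w : Module.Basis (Fin 2) A V) (v : V) :
    v ∈ Submodule.span A {w 0} ↔ w.repr v 1 = 0 := by
  constructor
  · intro h
    obtain ⟨c, rfl⟩ := Submodule.mem_span_singleton.mp h
    rw [map_smul, Finsupp.smul_apply, repr_self_zero_one, smul_zero]
  · intro h
    rw [eq_repr_smul_add w v, h, zero_smul, add_zero]
    exact Submodule.smul_mem _ _ (Submodule.mem_span_singleton_self _)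

theorem eq_smul_of_repr_one (w : Module.Basis (Fin 2) A V) {v : V} (h : w.repr v 1 = 0) :
    v = w.repr v 0 • w 0 := by
  conv_lhs => rw [eq_repr_smul_add w v, h, zero_smul, add_zero]

/-- A vector with a unit coordinate is the first vector of a basis. -/
theorem exists_basis_of_isUnit_coord (e : Module.Basis (Fin 2) A V) (v : V) (i : Fin 2)
    (hu : IsUnit (e.repr v i)) : ∃ w : Module.Basis (Fin 2) A V, w 0 = v := by
  have main : ∀ u : V, IsUnit (e.det ![v, u]) → ∃ w : Module.Basis (Fin 2) A V, w 0 = v := by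
    intro u hdet
    obtain ⟨hli, hspan⟩ := e.is_basis_iff_det.mpr hdet
    refine ⟨Module.Basis.mk hli hspan.ge, ?_⟩
    rw [Module.Basis.mk_apply]
    rfl
  fin_cases i
  · apply main (e 1)
    rw [Module.Basis.det_apply, Matrix.det_fin_two]
    simp only [Module.Basis.toMatrix_apply, Matrix.cons_val_zero, Matrix.cons_val_one]
    rw [repr_self_one_zero, repr_self_one_one, mul_one, zero_mul, sub_zero]
    exact hu
  · apply main (e 0)
    rw [Module.Basis.det_apply, Matrix.det_fin_two]
    simp only [Module.Basis.toMatrix_apply, Matrix.cons_val_zero, Matrix.cons_val_one]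
    rw [repr_self_zero_zero, repr_self_zero_one, mul_zero, one_mul, zero_sub]
    exact hu.neg

/-- Coordinates of the image of a vector under an endomorphism. -/
theorem repr_apply (w : Module.Basis (Fin 2) A V) (f : Module.End A V) (v : V) (i : Fin 2) :
    w.repr (f v) i =
      w.repr v 0 * w.repr (f (w 0)) i + w.repr v 1 * w.repr (f (w 1)) i := by
  have h : f v = w.repr v 0 • f (w 0) + w.repr v 1 • f (w 1) := by
    conv_lhs => rw [eq_repr_smul_add w v]
    rw [map_add, map_smul, map_smul]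
  rw [h, map_add, map_smul, map_smul, Finsupp.add_apply, Finsupp.smul_apply, Finsupp.smul_apply,
    smul_eq_mul, smul_eq_mul]

theorem repr_baseChange_one_tmul {B : Type} [CommRing B] [Algebra A B]
    (w : Module.Basis (Fin 2) A V) (v : V) (i : Fin 2) :
    (w.baseChange B).repr ((1 : B) ⊗ₜ[A] v) i = algebraMap A B (w.repr v i) := by
  rw [Module.Basis.baseChange_repr_tmul, Algebra.smul_def, mul_one]

theorem repr_baseChange_apply {B : Type} [CommRing B] [Algebra A B]
    (w : Module.Basis (Fin 2) A V) (f : Module.End A V) (i j : Fin 2) :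
    (w.baseChange B).repr (f.baseChange B (w.baseChange B i)) j =
      algebraMap A B (w.repr (f (w i)) j) := by
  rw [Module.Basis.baseChange_apply, LinearMap.baseChange_tmul, repr_baseChange_one_tmul]

end Coord

/-! ### The strict-ordinary datum and its triangular form -/

section Tri

variable {A : Type} [CommRing A] {V : Type} [AddCommGroup V] [Module A V]

/-- The strict-ordinary datum at `P` for an action `r` of `G_ℚ` on `V`. -/
def SOAt (r : GQ →* Module.End A V) (p : ℕ) (P : ValuationSubring Qb) : Prop :=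
  ∃ L : Submodule A V,
      (∃ b : Module.Basis (Fin 2) A V, L = Submodule.span A {b 0}) ∧
      (∀ σ ∈ P.decompositionSubgroup ℚ, ∀ v ∈ L, r σ v ∈ L) ∧
      (∀ σ ∈ P.inertiaSubgroupIn ℚ, ∀ v : V, r σ v - v ∈ L) ∧
      (∀ σ ∈ P.decompositionSubgroup ℚ, ∃ x z : A,
        (∀ w ∈ L, r σ w = x • w) ∧ (∀ v : V, r σ v - z • v ∈ L) ∧ CycRel A p σ x z)

/-- The triangular form of the strict-ordinary datum with respect to a basis `w`. -/
structure SOTri (r : GQ →* Module.End A V) (p : ℕ) (P : ValuationSubring Qb)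
    (w : Module.Basis (Fin 2) A V) : Prop where
  dec : ∀ σ ∈ P.decompositionSubgroup ℚ, w.repr (r σ (w 0)) 1 = 0
  inert : ∀ σ ∈ P.inertiaSubgroupIn ℚ, w.repr (r σ (w 1)) 1 = 1
  cyc : ∀ σ ∈ P.decompositionSubgroup ℚ,
    CycRel A p σ (w.repr (r σ (w 0)) 0) (w.repr (r σ (w 1)) 1)

theorem inertia_le_decomposition {P : ValuationSubring Qb} {σ : GQ}
    (h : σ ∈ P.inertiaSubgroupIn ℚ) : σ ∈ P.decompositionSubgroup ℚ := by
  obtain ⟨d, -, rfl⟩ := h
  exact d.2

theorem SOTri.soAt {r : GQ →* Module.End A V} {p : ℕ} {P : ValuationSubring Qb}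
    {w : Module.Basis (Fin 2) A V} (h : SOTri r p P w) : SOAt r p P := by
  refine ⟨Submodule.span A {w 0}, ⟨w, rfl⟩, ?_, ?_, ?_⟩
  · intro σ hσ v hv
    obtain ⟨c, rfl⟩ := Submodule.mem_span_singleton.mp hv
    rw [map_smul]
    apply Submodule.smul_mem
    rw [mem_span_iff_repr_one]
    exact h.dec σ hσ
  · intro σ hσ v
    rw [mem_span_iff_repr_one, map_sub, Finsupp.sub_apply, repr_apply w (r σ) v 1,
      h.dec σ (inertia_le_decomposition hσ), h.inert σ hσ]
    ring
  · intro σ hσ
    refine ⟨w.repr (r σ (w 0)) 0, w.repr (r σ (w 1)) 1, ?_, ?_, h.cyc σ hσ⟩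
    · intro u hu
      obtain ⟨c, rfl⟩ := Submodule.mem_span_singleton.mp hu
      rw [map_smul, smul_comm]
      congr 1
      exact eq_smul_of_repr_one w (h.dec σ hσ)
    · intro v
      rw [mem_span_iff_repr_one, map_sub, map_smul, Finsupp.sub_apply, Finsupp.smul_apply,
        repr_apply w (r σ) v 1, h.dec σ hσ, smul_eq_mul]
      ring

theorem SOAt.exists_soTri {r : GQ →* Module.End A V} {p : ℕ} {P : ValuationSubring Qb}
    (h : SOAt r p P) : ∃ w : Module.Basis (Fin 2) A V, SOTri r p P w := by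
  obtain ⟨L, ⟨b, rfl⟩, hD, hI, hC⟩ := h
  refine ⟨b, ⟨?_, ?_, ?_⟩⟩
  · intro σ hσ
    rw [← mem_span_iff_repr_one]
    exact hD σ hσ _ (Submodule.mem_span_singleton_self _)
  · intro σ hσ
    have h1 := (mem_span_iff_repr_one b _).mp (hI σ hσ (b 1))
    rw [map_sub, Finsupp.sub_apply, repr_self_one_one, sub_eq_zero] at h1
    exact h1
  · intro σ hσ
    obtain ⟨x, z, hx, hz, hc⟩ := hC σ hσ
    have h1 : b.repr (r σ (b 0)) 0 = x := by
      rw [hx (b 0) (Submodule.mem_span_singleton_self _), map_smul, Finsupp.smul_apply,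
        repr_self_zero_zero, smul_eq_mul, mul_one]
    have h2 : b.repr (r σ (b 1)) 1 = z := by
      have h3 := (mem_span_iff_repr_one b _).mp (hz (b 1))
      rw [map_sub, map_smul, Finsupp.sub_apply, Finsupp.smul_apply, repr_self_one_one,
        smul_eq_mul, mul_one, sub_eq_zero] at h3
      exact h3
    rw [h1, h2]
    exact hc

theorem soAt_iff_exists_soTri {r : GQ →* Module.End A V} {p : ℕ} {P : ValuationSubring Qb} :
    SOAt r p P ↔ ∃ w : Module.Basis (Fin 2) A V, SOTri r p P w :=
  ⟨fun h => h.exists_soTri, fun ⟨_, h⟩ => h.soAt⟩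

/-- Transport along an equivariant linear equivalence. -/
theorem SOTri.map_equiv {V' : Type} [AddCommGroup V'] [Module A V']
    {r : GQ →* Module.End A V} {r' : GQ →* Module.End A V'} (e : V ≃ₗ[A] V')
    (he : ∀ σ x, e (r σ x) = r' σ (e x)) {p : ℕ} {P : ValuationSubring Qb}
    {w : Module.Basis (Fin 2) A V} (h : SOTri r p P w) : SOTri r' p P (w.map e) := by
  have key : ∀ σ (i j : Fin 2), (w.map e).repr (r' σ ((w.map e) i)) j = w.repr (r σ (w i)) j := by
    intro σ i j
    rw [Module.Basis.map_apply, ← he, Module.Basis.map_repr, LinearEquiv.trans_apply,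
      LinearEquiv.symm_apply_apply]
  refine ⟨fun σ hσ => ?_, fun σ hσ => ?_, fun σ hσ => ?_⟩
  · rw [key]; exact h.dec σ hσ
  · rw [key]; exact h.inert σ hσ
  · rw [key, key]; exact h.cyc σ hσ

/-- Base change of the triangular form. -/
theorem SOTri.baseChange {B : Type} [CommRing B] [Algebra A B]
    {r : GQ →* Module.End A V} (rB : GQ →* Module.End B (B ⊗[A] V))
    (hrB : ∀ σ, rB σ = (r σ).baseChange B) {p : ℕ} {P : ValuationSubring Qb}
    {w : Module.Basis (Fin 2) A V} (h : SOTri r p P w) : SOTri rB p P (w.baseChange B) := by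
  refine ⟨fun σ hσ => ?_, fun σ hσ => ?_, fun σ hσ => ?_⟩
  · rw [hrB, repr_baseChange_apply, h.dec σ hσ, map_zero]
  · rw [hrB, repr_baseChange_apply, h.inert σ hσ, map_one]
  · rw [hrB, repr_baseChange_apply, repr_baseChange_apply]
    exact (h.cyc σ hσ).map _

/-- Base change of the strict-ordinary datum. -/
theorem SOAt.baseChange {B : Type} [CommRing B] [Algebra A B]
    {r : GQ →* Module.End A V} (rB : GQ →* Module.End B (B ⊗[A] V))
    (hrB : ∀ σ, rB σ = (r σ).baseChange B) {p : ℕ} {P : ValuationSubring Qb}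
    (h : SOAt r p P) : SOAt rB p P := by
  obtain ⟨w, hw⟩ := h.exists_soTri
  exact (hw.baseChange rB hrB).soAt

/-- **Pull-back**: if the base change is strict-ordinary at `P` and `w` is a basis of `V` whose
first vector lies in the image of `r σ₀ - 1` (`σ₀` in inertia), then the triangular form holds
for `w` after applying `A → B`. -/
theorem soTri_pull {B : Type} [CommRing B] [Algebra A B]
    {r : GQ →* Module.End A V} (rB : GQ →* Module.End B (B ⊗[A] V))
    (hrB : ∀ σ, rB σ = (r σ).baseChange B) {p : ℕ} {P : ValuationSubring Qb}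
    (h : SOAt rB p P) (w : Module.Basis (Fin 2) A V) {σ₀ : GQ}
    (hσ₀ : σ₀ ∈ P.inertiaSubgroupIn ℚ) (hw : w 0 ∈ LinearMap.range (r σ₀ - 1)) :
    (∀ σ ∈ P.decompositionSubgroup ℚ, algebraMap A B (w.repr (r σ (w 0)) 1) = 0) ∧
    (∀ σ ∈ P.inertiaSubgroupIn ℚ, algebraMap A B (w.repr (r σ (w 1)) 1) = 1) ∧
    (∀ σ ∈ P.decompositionSubgroup ℚ,
      CycRel B p σ (algebraMap A B (w.repr (r σ (w 0)) 0))
        (algebraMap A B (w.repr (r σ (w 1)) 1))) := by
  obtain ⟨L, ⟨c, rfl⟩, hD, hI, hC⟩ := h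
  have hw0 : (w.baseChange B) 0 ∈ Submodule.span B {c 0} := by
    obtain ⟨v₀, hv₀⟩ := hw
    have h1 := hI σ₀ hσ₀ ((1 : B) ⊗ₜ[A] v₀)
    rw [hrB, LinearMap.baseChange_tmul, ← TensorProduct.tmul_sub] at h1
    rw [Module.Basis.baseChange_apply, ← hv₀, LinearMap.sub_apply, Module.End.one_apply]
    exact h1
  obtain ⟨t, ht⟩ := Submodule.mem_span_singleton.mp hw0
  have hγ : (w.baseChange B).repr (c 0) 1 = 0 := by
    have h0 := congrArg (fun u => (w.baseChange B).repr u 0) ht
    have h1 := congrArg (fun u => (w.baseChange B).repr u 1) ht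
    simp only [map_smul, Finsupp.smul_apply, smul_eq_mul, repr_self_zero_zero,
      repr_self_zero_one] at h0 h1
    calc (w.baseChange B).repr (c 0) 1
        = (t * (w.baseChange B).repr (c 0) 0) * (w.baseChange B).repr (c 0) 1 := by
          rw [h0, one_mul]
      _ = (w.baseChange B).repr (c 0) 0 * (t * (w.baseChange B).repr (c 0) 1) := by ring
      _ = 0 := by rw [h1, mul_zero]
  have hL : ∀ u ∈ Submodule.span B {c 0}, (w.baseChange B).repr u 1 = 0 := by
    intro u hu
    obtain ⟨s, rfl⟩ := Submodule.mem_span_singleton.mp hu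
    rw [map_smul, Finsupp.smul_apply, hγ, smul_zero]
  refine ⟨fun σ hσ => ?_, fun σ hσ => ?_, fun σ hσ => ?_⟩
  · have h1 := hL _ (hD σ hσ _ hw0)
    rw [hrB, repr_baseChange_apply] at h1
    exact h1
  · have h1 := hL _ (hI σ hσ ((w.baseChange B) 1))
    rw [map_sub, Finsupp.sub_apply, hrB, repr_baseChange_apply, repr_self_one_one,
      sub_eq_zero] at h1
    exact h1
  · obtain ⟨x, z, hx, hz, hc⟩ := hC σ hσ
    have h1 : algebraMap A B (w.repr (r σ (w 0)) 0) = x := by
      have h2 := congrArg (fun u => (w.baseChange B).repr u 0) (hx _ hw0)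
      simp only [map_smul, Finsupp.smul_apply, smul_eq_mul, repr_self_zero_zero, mul_one] at h2
      rw [hrB, repr_baseChange_apply] at h2
      exact h2
    have h3 : algebraMap A B (w.repr (r σ (w 1)) 1) = z := by
      have h4 := hL _ (hz ((w.baseChange B) 1))
      rw [map_sub, map_smul, Finsupp.sub_apply, Finsupp.smul_apply, hrB, repr_baseChange_apply,
        repr_self_one_one, smul_eq_mul, mul_one, sub_eq_zero] at h4
      exact h4
    rw [h1, h3]
    exact hc

end Tri

/-! ### Existence of an adapted basis -/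

section Exists

variable {A : Type} [CommRing A] [IsLocalRing A] {V : Type} [AddCommGroup V] [Module A V]

theorem isUnit_natCast_sub_one {B : Type} [CommRing B] [IsLocalRing B] {p : ℕ} [Fact p.Prime]
    (hpB : (p : B) ∈ maximalIdeal B) {a₀ : ℕ} (hne : ¬ (p : ℤ) ∣ (a₀ : ℤ) - 1) :
    IsUnit ((a₀ : B) - 1) := by
  have hp : Prime (p : ℤ) := Nat.prime_iff_prime_int.mp Fact.out
  have hcop : IsCoprime (p : ℤ) ((a₀ : ℤ) - 1) := (Prime.coprime_iff_not_dvd hp).mpr hne
  obtain ⟨u, v, huv⟩ := hcop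
  have h1 : (u : B) * (p : B) + (v : B) * ((a₀ : B) - 1) = 1 := by
    have := congrArg (Int.cast : ℤ → B) huv
    push_cast at this
    exact this
  by_contra hnu
  have h2 : (a₀ : B) - 1 ∈ maximalIdeal B := (IsLocalRing.mem_maximalIdeal _).mpr hnu
  have h3 : (1 : B) ∈ maximalIdeal B := by
    rw [← h1]
    exact Ideal.add_mem _ (Ideal.mul_mem_left _ _ hpB) (Ideal.mul_mem_left _ _ h2)
  exact (Ideal.ne_top_iff_one _).mp (IsLocalRing.maximalIdeal.isMaximal B).ne_top h3

/-- If the base change along a local homomorphism is strict-ordinary at `P`, and `σ₀` is an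
element of inertia on which the mod `p` cyclotomic character is nontrivial, then some vector in
the image of `r σ₀ - 1` is the first vector of a basis. -/
theorem exists_basis_of_soAt {B : Type} [CommRing B] [IsLocalRing B] [Algebra A B]
    (hloc : IsLocalHom (algebraMap A B)) {r : GQ →* Module.End A V}
    (rB : GQ →* Module.End B (B ⊗[A] V)) (hrB : ∀ σ, rB σ = (r σ).baseChange B)
    {p : ℕ} [Fact p.Prime] {P : ValuationSubring Qb} (hpB : (p : B) ∈ maximalIdeal B)
    (h : SOAt rB p P) (e : Module.Basis (Fin 2) A V) {σ₀ : GQ}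
    (hσ₀ : σ₀ ∈ P.inertiaSubgroupIn ℚ)
    {a₀ : ℕ} (ha₀ : ∀ μ : Qb, μ ^ p ^ 1 = 1 → σ₀ μ = μ ^ a₀) (hne : ¬ (p : ℤ) ∣ (a₀ : ℤ) - 1) :
    ∃ w : Module.Basis (Fin 2) A V, w 0 ∈ LinearMap.range (r σ₀ - 1) := by
  by_contra hcon
  have hnu : ∀ j i : Fin 2, e.repr ((r σ₀ - 1) (e j)) i ∈ maximalIdeal A := by
    intro j i
    rw [IsLocalRing.mem_maximalIdeal, mem_nonunits_iff]
    intro hu
    obtain ⟨w, hw⟩ := exists_basis_of_isUnit_coord e _ i hu
    exact hcon ⟨w, by rw [hw]; exact LinearMap.mem_range_self _ _⟩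
  obtain ⟨c, hc⟩ := h.exists_soTri
  have hσ₀D := inertia_le_decomposition hσ₀
  have hcyc := hc.cyc σ₀ hσ₀D 1 a₀ ha₀
  rw [hc.inert σ₀ hσ₀, mul_one] at hcyc
  have hxa : c.repr (rB σ₀ (c 0)) 0 - (a₀ : B) ∈ maximalIdeal B := by
    have hle : Ideal.span {((p ^ 1 : ℕ) : B)} ≤ maximalIdeal B := by
      rw [Ideal.span_le, Set.singleton_subset_iff, pow_one]
      exact hpB
    exact hle hcyc
  have hxu : IsUnit (c.repr (rB σ₀ (c 0)) 0 - 1) := by
    by_contra hnu'
    have h2 : c.repr (rB σ₀ (c 0)) 0 - 1 ∈ maximalIdeal B :=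
      (IsLocalRing.mem_maximalIdeal _).mpr hnu'
    have h3 : (a₀ : B) - 1 ∈ maximalIdeal B := by
      have : (a₀ : B) - 1 =
          (c.repr (rB σ₀ (c 0)) 0 - 1) - (c.repr (rB σ₀ (c 0)) 0 - (a₀ : B)) := by ring
      rw [this]
      exact Ideal.sub_mem _ h2 hxa
    exact (IsLocalRing.mem_maximalIdeal _).mp h3 (isUnit_natCast_sub_one hpB hne)
  have hTe : ∀ j i : Fin 2,
      (e.baseChange B).repr ((rB σ₀ - 1 : Module.End B (B ⊗[A] V)) ((e.baseChange B) j)) i ∈
        maximalIdeal B := by
    intro j i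
    have h1 : (e.baseChange B).repr
        ((rB σ₀ - 1 : Module.End B (B ⊗[A] V)) ((e.baseChange B) j)) i =
        algebraMap A B (e.repr ((r σ₀ - 1) (e j)) i) := by
      rw [LinearMap.sub_apply, Module.End.one_apply, map_sub, Finsupp.sub_apply, hrB,
        repr_baseChange_apply, Module.Basis.baseChange_apply, repr_baseChange_one_tmul,
        LinearMap.sub_apply, Module.End.one_apply, map_sub, Finsupp.sub_apply, map_sub]
    rw [h1]
    have h2 := hnu j i
    rw [IsLocalRing.mem_maximalIdeal, mem_nonunits_iff] at h2 ⊢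
    exact fun hu => h2 (hloc.map_nonunit _ hu)
  have hTu : ∀ (u : B ⊗[A] V) (i : Fin 2),
      (e.baseChange B).repr ((rB σ₀ - 1 : Module.End B (B ⊗[A] V)) u) i ∈ maximalIdeal B := by
    intro u i
    rw [repr_apply (e.baseChange B) _ u i]
    exact Ideal.add_mem _ (Ideal.mul_mem_left _ _ (hTe 0 i)) (Ideal.mul_mem_left _ _ (hTe 1 i))
  have hTc : (rB σ₀ - 1 : Module.End B (B ⊗[A] V)) (c 0) =
      (c.repr (rB σ₀ (c 0)) 0 - 1) • c 0 := by
    have h5 := eq_smul_of_repr_one c (hc.dec σ₀ hσ₀D)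
    rw [LinearMap.sub_apply, Module.End.one_apply]
    conv_lhs => rw [h5]
    module
  have hc0 : ∀ i : Fin 2, (e.baseChange B).repr (c 0) i ∈ maximalIdeal B := by
    intro i
    have h1 := hTu (c 0) i
    rw [hTc, map_smul, Finsupp.smul_apply, smul_eq_mul] at h1
    exact (Ideal.unit_mul_mem_iff_mem _ hxu).mp h1
  have h1 : (1 : B) ∈ maximalIdeal B := by
    have h2 : c.repr (c 0) 0 =
        (e.baseChange B).repr (c 0) 0 * c.repr ((e.baseChange B) 0) 0 +
          (e.baseChange B).repr (c 0) 1 * c.repr ((e.baseChange B) 1) 0 := by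
      conv_lhs => rw [eq_repr_smul_add (e.baseChange B) (c 0)]
      rw [map_add, map_smul, map_smul, Finsupp.add_apply, Finsupp.smul_apply,
        Finsupp.smul_apply, smul_eq_mul, smul_eq_mul]
    rw [repr_self_zero_zero] at h2
    rw [h2]
    exact Ideal.add_mem _ (Ideal.mul_mem_right _ _ (hc0 0)) (Ideal.mul_mem_right _ _ (hc0 1))
  exact (Ideal.ne_top_iff_one _).mp (IsLocalRing.maximalIdeal.isMaximal B).ne_top h1

end Exists

end Fermat.Agent.S59.SO
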