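/-
Cluster J (S59), J3a: "cyclotomic determinant" is a deformation condition.  Owner: helper77.

For a ring `A` in which `p ^ N = 0`, `DetIsCyclotomic` is the EQUALITY `det ρ(σ) = a` for every `a`
with `σ = (·)^a` on `μ_{p^N}` (`detIsCyclotomic_iff_detEq`); equalities descend along injections and
fibre products.  For `iff_forall_surjective`: the quotients `A ⧸ 𝔪^k` and Krull's intersection
theorem.
-/
import Mathlib
import Fermat.Agent.S59.Conditions
import Fermat.Agent.S59.DefCond.TestQuot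

set_option autoImplicit false
set_option linter.unusedSectionVars false
set_option linter.style.haveILetI false

namespace Fermat.Agent.S59

open IsLocalRing GaloisRep

local notation "Γℚ" => (AlgebraicClosure ℚ ≃ₐ[ℚ] AlgebraicClosure ℚ)

/-! ### Determinants and base change -/

/-- The determinant commutes with `baseChangeAlong`. -/
theorem detCond_det_baseChangeAlong {A B : Type} [CommRing A] [IsLocalRing A] [CommRing B]
    [IsLocalRing B] (φ : A →+* B) (hφ : IsLocalHom φ) (ρ : GaloisRepAdic A) (σ : Γℚ) :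
    LinearMap.det ((ρ.baseChangeAlong φ hφ).ρ σ) = φ (LinearMap.det (ρ.ρ σ)) := by
  letI : Algebra A B := φ.toAlgebra
  exact LinearMap.det_baseChange (A := B) (ρ.ρ σ)

/-- The determinant is invariant under equivalence. -/
theorem detCond_det_of_equiv {A : Type} [CommRing A] [IsLocalRing A] {ρ ρ' : GaloisRepAdic A}
    (e : GaloisRepAdic.Equiv ρ ρ') (σ : Γℚ) :
    LinearMap.det (ρ'.ρ σ) = LinearMap.det (ρ.ρ σ) := by
  have h : ρ'.ρ σ = (e.toLinearEquiv : ρ.V →ₗ[A] ρ'.V) ∘ₗ ρ.ρ σ ∘ₗ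
      (e.toLinearEquiv.symm : ρ'.V →ₗ[A] ρ.V) := by
    refine LinearMap.ext fun y => ?_
    simp only [LinearMap.comp_apply, LinearEquiv.coe_coe]
    rw [e.map_apply, LinearEquiv.apply_symm_apply]
  rw [h, LinearMap.det_conj]

/-! ### Roots of unity in `ℚ̄` -/

/-- Every automorphism acts on `μ_{p^N}` as a power map. -/
theorem detCond_exists_pow (p N : ℕ) [Fact p.Prime] (σ : Γℚ) :
    ∃ a : ℕ, ∀ μ : AlgebraicClosure ℚ, μ ^ p ^ N = 1 → σ μ = μ ^ a := by
  haveI : NeZero (p ^ N) := ⟨pow_ne_zero _ (Fact.out : p.Prime).ne_zero⟩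
  haveI : NeZero ((p ^ N : ℕ) : AlgebraicClosure ℚ) :=
    ⟨Nat.cast_ne_zero.mpr (pow_ne_zero _ (Fact.out : p.Prime).ne_zero)⟩
  obtain ⟨ζ, hζ⟩ := HasEnoughRootsOfUnity.exists_primitiveRoot (AlgebraicClosure ℚ) (p ^ N)
  have hσζ : (σ ζ) ^ (p ^ N) = 1 := by rw [← map_pow, hζ.pow_eq_one, map_one]
  obtain ⟨a, -, ha⟩ := hζ.eq_pow_of_pow_eq_one hσζ
  refine ⟨a, fun μ hμ => ?_⟩
  obtain ⟨j, -, rfl⟩ := hζ.eq_pow_of_pow_eq_one hμ
  rw [map_pow, ← ha, ← pow_mul, ← pow_mul, mul_comm]

/-- Two exponents describing the action of `σ` on `μ_{p^n}` are congruent modulo `p^n`. -/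
theorem detCond_modEq (p n : ℕ) [Fact p.Prime] (σ : Γℚ) {a a' : ℕ}
    (ha : ∀ μ : AlgebraicClosure ℚ, μ ^ p ^ n = 1 → σ μ = μ ^ a)
    (ha' : ∀ μ : AlgebraicClosure ℚ, μ ^ p ^ n = 1 → σ μ = μ ^ a') :
    a ≡ a' [MOD p ^ n] := by
  haveI : NeZero (p ^ n) := ⟨pow_ne_zero _ (Fact.out : p.Prime).ne_zero⟩
  obtain ⟨ζ, hζ⟩ := HasEnoughRootsOfUnity.exists_primitiveRoot (AlgebraicClosure ℚ) (p ^ n)
  have h : ζ ^ a = ζ ^ a' := by rw [← ha ζ hζ.pow_eq_one, ← ha' ζ hζ.pow_eq_one]
  have hu : IsUnit ζ := hζ.isUnit (NeZero.ne _)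
  have h' : hu.unit ^ a = hu.unit ^ a' := Units.ext (by simpa using h)
  have h2 := pow_eq_pow_iff_modEq.mp h'
  rwa [← orderOf_units, IsUnit.unit_spec, ← hζ.eq_orderOf] at h2

/-- Congruent natural numbers differ by a multiple in any ring. -/
theorem detCond_cast_sub_mem {A : Type} [CommRing A] {m a a' : ℕ} (h : a ≡ a' [MOD m]) :
    (a : A) - (a' : A) ∈ Ideal.span {((m : ℕ) : A)} := by
  have h2 : (m : ℤ) ∣ (a : ℤ) - (a' : ℤ) := by
    have := (Int.natCast_modEq_iff.mpr h).symm.dvd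
    exact this
  obtain ⟨c, hc⟩ := h2
  rw [Ideal.mem_span_singleton]
  refine ⟨(c : A), ?_⟩
  have : ((a : ℤ) : A) - ((a' : ℤ) : A) = ((m : ℤ) : A) * (c : A) := by
    rw [← Int.cast_sub, hc, Int.cast_mul]
  simpa using this

/-! ### The equality reformulation -/

/-- The equality form of the determinant condition at level `N`. -/
def DetEqAt {A : Type} [CommRing A] [IsLocalRing A] (ρ : GaloisRepAdic A) (p N : ℕ) : Prop :=
  ∀ (σ : Γℚ) (a : ℕ), (∀ μ : AlgebraicClosure ℚ, μ ^ p ^ N = 1 → σ μ = μ ^ a) →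
    LinearMap.det (ρ.ρ σ) = (a : A)

/-- If `p ^ N = 0` in `A`, the determinant condition implies the equality form at level `N`. -/
theorem detEqAt_of_detIsCyclotomic {A : Type} [CommRing A] [IsLocalRing A] {ρ : GaloisRepAdic A}
    {p N : ℕ} (hN : ((p ^ N : ℕ) : A) = 0) (h : ρ.DetIsCyclotomic p) : DetEqAt ρ p N := by
  intro σ a ha
  have := h.2 N σ a ha
  rw [hN, Ideal.span_singleton_zero, Ideal.mem_bot, sub_eq_zero] at this
  exact this

/-- The equality form at some level implies the determinant condition. -/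
theorem detIsCyclotomic_of_detEqAt {A : Type} [CommRing A] [IsLocalRing A] {ρ : GaloisRepAdic A}
    {p N : ℕ} [Fact p.Prime] (hp : (p : A) ∈ maximalIdeal A) (h : DetEqAt ρ p N) :
    ρ.DetIsCyclotomic p := by
  refine ⟨hp, fun n σ a ha => ?_⟩
  obtain ⟨a', ha'⟩ := detCond_exists_pow p (max n N) σ
  have hsub : ∀ k : ℕ, k ≤ max n N → ∀ μ : AlgebraicClosure ℚ, μ ^ p ^ k = 1 → σ μ = μ ^ a' := by
    intro k hk μ hμ
    refine ha' μ ?_
    obtain ⟨d, hd⟩ := Nat.exists_eq_add_of_le hk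
    rw [hd, pow_add, pow_mul, hμ, one_pow]
  rw [h σ a' (hsub N (le_max_right _ _))]
  exact detCond_cast_sub_mem (detCond_modEq p n σ (hsub n (le_max_left _ _)) ha)

/-- In an Artinian local ring with `p ∈ 𝔪`, some power of `p` vanishes. -/
theorem detCond_exists_pow_eq_zero {A : Type} [CommRing A] [IsLocalRing A] [IsArtinianRing A]
    {p : ℕ} (hp : (p : A) ∈ maximalIdeal A) : ∃ N : ℕ, ((p ^ N : ℕ) : A) = 0 := by
  obtain ⟨N, hN⟩ := TestQuot.exists_pow_eq_zero A hp
  exact ⟨N, by rw [Nat.cast_pow, hN]⟩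

/-- Vanishing of `p^N` persists for larger exponents. -/
theorem detCond_pow_eq_zero_of_le {A : Type} [CommRing A] {p N M : ℕ}
    (hN : ((p ^ N : ℕ) : A) = 0) (h : N ≤ M) : ((p ^ M : ℕ) : A) = 0 := by
  obtain ⟨d, rfl⟩ := Nat.exists_eq_add_of_le h
  rw [pow_add, Nat.cast_mul, hN, zero_mul]

/-- The equality form passes to larger levels. -/
theorem DetEqAt.of_le {A : Type} [CommRing A] [IsLocalRing A] {ρ : GaloisRepAdic A}
    {p N M : ℕ} (h : DetEqAt ρ p N) (hNM : N ≤ M) : DetEqAt ρ p M := by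
  intro σ a ha
  refine h σ a fun μ hμ => ha μ ?_
  obtain ⟨d, rfl⟩ := Nat.exists_eq_add_of_le hNM
  rw [pow_add, pow_mul, hμ, one_pow]

/-! ### Base change of the condition -/

/-- The determinant condition is stable under base change along any local homomorphism. -/
theorem detIsCyclotomic_baseChangeAlong {A B : Type} [CommRing A] [IsLocalRing A] [CommRing B]
    [IsLocalRing B] (φ : A →+* B) (hφ : IsLocalHom φ) {ρ : GaloisRepAdic A} {p : ℕ}
    (h : ρ.DetIsCyclotomic p) : (ρ.baseChangeAlong φ hφ).DetIsCyclotomic p := by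
  refine ⟨?_, fun n σ a ha => ?_⟩
  · have := TestQuot.map_mem_maximalIdeal φ hφ h.1
    rwa [map_natCast] at this
  · rw [detCond_det_baseChangeAlong]
    have h1 := h.2 n σ a ha
    rw [Ideal.mem_span_singleton] at h1 ⊢
    obtain ⟨c, hc⟩ := h1
    refine ⟨φ c, ?_⟩
    rw [← map_natCast φ a, ← map_sub, hc, map_mul, map_natCast]

/-- The equality form descends along an injective homomorphism. -/
theorem detEqAt_of_baseChangeAlong_injective {A B : Type} [CommRing A] [IsLocalRing A]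
    [CommRing B] [IsLocalRing B] (φ : A →+* B) (hφ : IsLocalHom φ)
    (hinj : Function.Injective φ) {ρ : GaloisRepAdic A} {p N : ℕ}
    (h : DetEqAt (ρ.baseChangeAlong φ hφ) p N) : DetEqAt ρ p N := by
  intro σ a ha
  apply hinj
  rw [← detCond_det_baseChangeAlong φ hφ, h σ a ha, map_natCast]

/-! ### The theorem -/

theorem condDet_isDeformationCondition (𝒪 : Type) [CommRing 𝒪] [IsLocalRing 𝒪]
    (p : ℕ) [Fact p.Prime] :
    GaloisRep.IsDeformationCondition 𝒪 (condDet 𝒪 p) where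
  of_isEquiv := by
    intro A _ _ _ _ ρ ρ' he hρ
    obtain ⟨e⟩ := he
    refine ⟨hρ.1, fun n σ a ha => ?_⟩
    rw [detCond_det_of_equiv e]
    exact hρ.2 n σ a ha
  baseChangeAlong := by
    intro A B _ _ _ _ _ _ _ _ φ hφ ρ hρ
    exact detIsCyclotomic_baseChangeAlong (φ : A →+* B) hφ hρ
  of_baseChangeAlong_injective := by
    intro A B _ _ _ _ _ _ _ hB φ hφ hinj ρ hρ
    haveI := hB.isArtinian
    obtain ⟨N, hN⟩ := detCond_exists_pow_eq_zero hρ.1
    have hpA : (p : A) ∈ maximalIdeal A := by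
      refine TestQuot.mem_maximalIdeal_of_map (φ : A →+* B) ?_
      rw [map_natCast]
      exact hρ.1
    exact detIsCyclotomic_of_detEqAt hpA
      (detEqAt_of_baseChangeAlong_injective (φ : A →+* B) hφ hinj
        (detEqAt_of_detIsCyclotomic hN hρ))
  of_fibreProduct := by
    intro A B C P _ _ _ _ _ _ _ _ _ _ _ _ hA hB _ _ f g pA pB hpA hpB _ hinj _ ρ h1 h2
    haveI := hA.isArtinian
    haveI := hB.isArtinian
    obtain ⟨N₁, hN₁⟩ := detCond_exists_pow_eq_zero h1.1
    obtain ⟨N₂, hN₂⟩ := detCond_exists_pow_eq_zero h2.1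
    have hpP : (p : P) ∈ maximalIdeal P := by
      refine TestQuot.mem_maximalIdeal_of_map (pA : P →+* A) ?_
      rw [map_natCast]
      exact h1.1
    have e1 := (detEqAt_of_detIsCyclotomic hN₁ h1).of_le (le_max_left N₁ N₂)
    have e2 := (detEqAt_of_detIsCyclotomic hN₂ h2).of_le (le_max_right N₁ N₂)
    refine detIsCyclotomic_of_detEqAt (N := max N₁ N₂) hpP fun σ a ha => ?_
    apply hinj
    show (pA (LinearMap.det (ρ.ρ σ)), pB (LinearMap.det (ρ.ρ σ))) = (pA (a : P), pB (a : P))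
    have q1 := e1 σ a ha
    have q2 := e2 σ a ha
    rw [detCond_det_baseChangeAlong] at q1 q2
    rw [map_natCast, map_natCast]
    exact Prod.ext q1 q2
  iff_forall_surjective := by
    intro A _ _ _ _ _ hloc hres ρ
    constructor
    · intro hρ B _ _ _ _ q hq _
      exact detIsCyclotomic_baseChangeAlong (q : A →+* B) hq hρ
    · intro H
      -- the quotients `A ⧸ 𝔪^k`, `k ≠ 0`
      have key : ∀ k : ℕ, k ≠ 0 →
          (p : A) ∈ maximalIdeal A ∧ ∀ (n : ℕ) (σ : Γℚ) (a : ℕ),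
            (∀ μ : AlgebraicClosure ℚ, μ ^ p ^ n = 1 → σ μ = μ ^ a) →
            LinearMap.det (ρ.ρ σ) - (a : A) ∈
              Ideal.span {((p ^ n : ℕ) : A)} ⊔ maximalIdeal A ^ k := by
        intro k hk
        have hne : maximalIdeal A ^ k ≠ ⊤ := TestQuot.maximalIdeal_pow_ne_top A hk
        haveI : IsLocalRing (A ⧸ maximalIdeal A ^ k) := TestQuot.isLocalRing_quotient A _ hne
        haveI : Nontrivial (A ⧸ maximalIdeal A ^ k) := Ideal.Quotient.nontrivial_iff.mpr hne
        have hT : IsArtinianTestAlgebra 𝒪 (A ⧸ maximalIdeal A ^ k) :=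
          TestQuot.isArtinianTestAlgebra_quotient A hloc hres _ hne le_rfl
        have hq : IsLocalHom ((Ideal.Quotient.mkₐ 𝒪 (maximalIdeal A ^ k) :
            A →ₐ[𝒪] A ⧸ maximalIdeal A ^ k) : A →+* A ⧸ maximalIdeal A ^ k) :=
          TestQuot.isLocalHom_mk A _
        have h := H hT (Ideal.Quotient.mkₐ 𝒪 (maximalIdeal A ^ k)) hq
          (Ideal.Quotient.mkₐ_surjective 𝒪 _)
        refine ⟨?_, fun n σ a ha => ?_⟩
        · refine TestQuot.mem_maximalIdeal_of_map (Ideal.Quotient.mk (maximalIdeal A ^ k)) ?_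
          rw [map_natCast]
          exact h.1
        · have h2 := h.2 n σ a ha
          rw [detCond_det_baseChangeAlong] at h2
          rw [Ideal.mem_span_singleton] at h2
          obtain ⟨c, hc⟩ := h2
          obtain ⟨c', rfl⟩ := Ideal.Quotient.mk_surjective c
          have h3 : Ideal.Quotient.mk (maximalIdeal A ^ k)
              (LinearMap.det (ρ.ρ σ) - (a : A) - ((p ^ n : ℕ) : A) * c') = 0 := by
            rw [map_sub, map_sub, map_mul, map_natCast, map_natCast, sub_eq_zero]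
            exact hc
          rw [Ideal.Quotient.eq_zero_iff_mem] at h3
          have h4 : LinearMap.det (ρ.ρ σ) - (a : A) =
              ((p ^ n : ℕ) : A) * c' +
                (LinearMap.det (ρ.ρ σ) - (a : A) - ((p ^ n : ℕ) : A) * c') := by ring
          rw [h4]
          exact Submodule.add_mem_sup (Ideal.mem_span_singleton.mpr ⟨c', rfl⟩) h3
      refine ⟨(key 1 one_ne_zero).1, fun n σ a ha => ?_⟩
      refine TestQuot.mem_of_forall_mem_sup_pow A _ fun k => ?_
      rcases Nat.eq_zero_or_pos k with rfl | hk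
      · rw [pow_zero, Ideal.one_eq_top, sup_top_eq]
        exact Submodule.mem_top
      · exact (key k hk.ne').2 n σ a ha

end Fermat.Agent.S59
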