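/-
Cluster J (S59), J3e: "flat at `p`" is a deformation condition.  Owner: helper27.
Route: `Lib/FlatMod` (`isFlatAt_iff` + closure of `IsFlatGaloisModule` under products, sub-objects,
quotients).  Base change `A → B`: `(B ⊗ V)/J(B ⊗ V)` is a quotient of a finite power of `V/IV`,
`I = φ⁻¹ J`.  Injective descent: `V_A ↪ V_B`.  Fibre products: `V_P ↪ V_A × V_B`.
`iff_forall_surjective`: the ideals `I` with `A ⧸ I` finite are the kernels of Artinian quotients.
-/
import Fermat.Agent.S59.Conditions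
import Fermat.Agent.Lib.FlatMod.Closure

set_option autoImplicit false
set_option linter.style.haveILetI false
set_option linter.unusedSectionVars false

namespace Fermat.Agent.S59

open Fermat.Agent.FlatMod IsLocalRing TensorProduct


/-- The residue field of a local `𝒪`-algebra with local structure map and `𝒪 → A/𝔪` onto is
finite when that of `𝒪` is. -/
theorem cfl_finite_residueField {𝒪 : Type} [CommRing 𝒪] [IsLocalRing 𝒪]
    [Finite (ResidueField 𝒪)] {A : Type} [CommRing A] [IsLocalRing A] [Algebra 𝒪 A]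
    (h1 : IsLocalHom (algebraMap 𝒪 A))
    (h2 : Function.Surjective (residue A ∘ algebraMap 𝒪 A)) : Finite (ResidueField A) := by
  have := h1
  refine Finite.of_surjective (ResidueField.map (algebraMap 𝒪 A)) fun y => ?_
  obtain ⟨x, hx⟩ := h2 y
  exact ⟨residue 𝒪 x, by rw [ResidueField.map_residue]; exact hx⟩

/-- An Artinian test algebra over `𝒪` with finite residue field is a finite ring. -/
theorem cfl_finite_of_artinian {𝒪 : Type} [CommRing 𝒪] [IsLocalRing 𝒪]
    [Finite (ResidueField 𝒪)] {A : Type} [CommRing A] [IsLocalRing A] [Algebra 𝒪 A]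
    (hA : GaloisRep.IsArtinianTestAlgebra 𝒪 A) : Finite A := by
  have := hA.isArtinian
  have := cfl_finite_residueField hA.isLocalHom hA.residue_surjective
  obtain ⟨n, hn⟩ := IsArtinianRing.isNilpotent_jacobson_bot (R := A)
  rw [IsLocalRing.jacobson_eq_maximalIdeal _ bot_ne_top] at hn
  have h : Finite (A ⧸ (⊥ : Ideal A)) :=
    IsLocalRing.finite_quotient_iff.2 ⟨n, hn.le⟩
  exact Finite.of_equiv _ (RingEquiv.quotientBot A).toEquiv

theorem cfl_finite_quot_bot {B : Type} [CommRing B] [Finite B] :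
    Finite (B ⧸ (⊥ : Ideal B)) :=
  Finite.of_surjective (Ideal.Quotient.mk ⊥) Ideal.Quotient.mk_surjective

variable {p : ℕ}

/-- Finite powers of a flat Galois module are flat. -/
theorem cfl_pi [Fact p.Prime] {M : Type} [AddCommGroup M]
    {act : (AlgebraicClosure ℚ ≃ₐ[ℚ] AlgebraicClosure ℚ) → M → M}
    (h : IsFlatGaloisModule p M act) (n : ℕ) :
    IsFlatGaloisModule p (Fin n → M) (fun σ x i => act σ (x i)) := by
  induction n with
  | zero => exact isFlatGaloisModule_of_subsingleton _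
  | succ n ih =>
    refine IsFlatGaloisModule.of_injective (h.prod ih)
      (AddMonoidHom.prod (Pi.evalAddMonoidHom (fun _ : Fin (n + 1) => M) 0)
        { toFun := fun x => Fin.tail x
          map_zero' := rfl
          map_add' := fun _ _ => rfl }) ?_ ?_
    · intro x y hxy
      have h0 : x 0 = y 0 := congrArg Prod.fst hxy
      have ht : Fin.tail x = Fin.tail y := congrArg Prod.snd hxy
      funext i
      refine Fin.cases h0 (fun j => ?_) i
      exact congrFun ht j
    · intro σ x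
      rfl


section maps

variable {A B : Type} [CommRing A] [IsLocalRing A] [CommRing B] [IsLocalRing B]
  (φ : A →+* B) (hφ : IsLocalHom φ) (ρ : GaloisRepAdic A) (I : Ideal A) (J : Ideal B)

/-- The additive map `V ⧸ I V → (B ⊗ V) ⧸ J (B ⊗ V)`, `[v] ↦ [b ⊗ v]`, for `φ(I) ⊆ J`. -/
noncomputable def cfl_t (hIJ : I ≤ J.comap φ) (b : B) :
    (ρ.V ⧸ (I • (⊤ : Submodule A ρ.V))) →+
      ((ρ.baseChangeAlong φ hφ).V ⧸ (J • (⊤ : Submodule B (ρ.baseChangeAlong φ hφ).V))) :=
  letI : Algebra A B := φ.toAlgebra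
  ((I • (⊤ : Submodule A ρ.V)).liftQ
    (((J • (⊤ : Submodule B (B ⊗[A] ρ.V))).mkQ.restrictScalars A).comp
      (TensorProduct.mk A B ρ.V b))
    (by
      refine Submodule.smul_le.2 fun a ha v _ => ?_
      rw [LinearMap.mem_ker, LinearMap.comp_apply, TensorProduct.mk_apply,
        LinearMap.restrictScalars_apply, Submodule.mkQ_apply, Submodule.Quotient.mk_eq_zero,
        TensorProduct.tmul_smul, TensorProduct.smul_tmul', Algebra.smul_def,
        RingHom.algebraMap_toAlgebra]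
      have : (φ a * b) ⊗ₜ[A] v = (φ a * b) • ((1 : B) ⊗ₜ[A] v) := by
        rw [TensorProduct.smul_tmul', smul_eq_mul, mul_one]
      rw [this]
      exact Submodule.smul_mem_smul (Ideal.mul_mem_right _ _ (hIJ ha)) Submodule.mem_top)
    ).toAddMonoidHom

theorem cfl_t_mk (hIJ : I ≤ J.comap φ) (b : B) (v : ρ.V) :
    letI : Algebra A B := φ.toAlgebra
    cfl_t φ hφ ρ I J hIJ b (Submodule.Quotient.mk v) =
      Submodule.Quotient.mk (p := (J • (⊤ : Submodule B (B ⊗[A] ρ.V)))) (b ⊗ₜ[A] v) :=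
  rfl

theorem cfl_t_equivariant (hIJ : I ≤ J.comap φ) (b : B)
    (σ : AlgebraicClosure ℚ ≃ₐ[ℚ] AlgebraicClosure ℚ) (x : ρ.V ⧸ (I • (⊤ : Submodule A ρ.V))) :
    cfl_t φ hφ ρ I J hIJ b (ρ.levelAction I σ x) =
      (ρ.baseChangeAlong φ hφ).levelAction J σ (cfl_t φ hφ ρ I J hIJ b x) := by
  letI : Algebra A B := φ.toAlgebra
  obtain ⟨v, rfl⟩ := Submodule.Quotient.mk_surjective _ x
  show cfl_t φ hφ ρ I J hIJ b (Submodule.Quotient.mk (ρ.ρ σ v)) =
    Submodule.Quotient.mk ((ρ.ρ σ).baseChange B (b ⊗ₜ[A] v))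
  rw [LinearMap.baseChange_tmul]
  rfl

/-- Elements of `J (B ⊗ V)`. -/
theorem cfl_tmul_mem (c : B) (hc : c ∈ J) (v : ρ.V) :
    letI : Algebra A B := φ.toAlgebra
    c ⊗ₜ[A] v ∈ (J • (⊤ : Submodule B (B ⊗[A] ρ.V))) := by
  letI : Algebra A B := φ.toAlgebra
  have : c ⊗ₜ[A] v = c • ((1 : B) ⊗ₜ[A] v) := by
    rw [TensorProduct.smul_tmul', smul_eq_mul, mul_one]
  rw [this]
  exact Submodule.smul_mem_smul hc Submodule.mem_top

/-- The sum of the maps `cfl_t` over a family of elements of `B`. -/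
noncomputable def cfl_sum (hIJ : I ≤ J.comap φ) {n : ℕ} (b : Fin n → B) :
    (Fin n → (ρ.V ⧸ (I • (⊤ : Submodule A ρ.V)))) →+
      ((ρ.baseChangeAlong φ hφ).V ⧸ (J • (⊤ : Submodule B (ρ.baseChangeAlong φ hφ).V))) :=
  ∑ i, (cfl_t φ hφ ρ I J hIJ (b i)).comp
    (Pi.evalAddMonoidHom (fun _ : Fin n => (ρ.V ⧸ (I • (⊤ : Submodule A ρ.V)))) i)

theorem cfl_sum_apply (hIJ : I ≤ J.comap φ) {n : ℕ} (b : Fin n → B)
    (x : Fin n → (ρ.V ⧸ (I • (⊤ : Submodule A ρ.V)))) :
    cfl_sum φ hφ ρ I J hIJ b x = ∑ i, cfl_t φ hφ ρ I J hIJ (b i) (x i) := by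
  simp only [cfl_sum, AddMonoidHom.finsetSum_apply, AddMonoidHom.comp_apply,
    Pi.evalAddMonoidHom_apply]

theorem cfl_sum_surjective (hIJ : I ≤ J.comap φ) {n : ℕ} (b : Fin n → B)
    (hb : ∀ c : B, ∃ i, c - b i ∈ J) :
    Function.Surjective (cfl_sum φ hφ ρ I J hIJ b) := by
  letI : Algebra A B := φ.toAlgebra
  intro w
  obtain ⟨z, rfl⟩ := Submodule.Quotient.mk_surjective _ w
  change B ⊗[A] ρ.V at z
  induction z using TensorProduct.induction_on with
  | zero => exact ⟨0, map_zero _⟩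
  | tmul c v =>
    obtain ⟨i, hi⟩ := hb c
    refine ⟨Pi.single i (Submodule.Quotient.mk v), ?_⟩
    rw [cfl_sum_apply, Finset.sum_eq_single i]
    · rw [Pi.single_eq_same, cfl_t_mk]
      refine (Submodule.Quotient.eq (J • (⊤ : Submodule B (B ⊗[A] ρ.V)))).2 ?_
      rw [← TensorProduct.sub_tmul]
      exact cfl_tmul_mem φ ρ J (b i - c) (by rw [← neg_sub]; exact J.neg_mem hi) v
    · intro j _ hj
      rw [Pi.single_eq_of_ne hj, map_zero]
    · intro h
      exact absurd (Finset.mem_univ i) h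
  | add x y hx hy =>
    obtain ⟨x', hx'⟩ := hx
    obtain ⟨y', hy'⟩ := hy
    exact ⟨x' + y', by rw [map_add, hx', hy']; rfl⟩

theorem cfl_sum_equivariant (hIJ : I ≤ J.comap φ) {n : ℕ} (b : Fin n → B)
    (σ : AlgebraicClosure ℚ ≃ₐ[ℚ] AlgebraicClosure ℚ)
    (x : Fin n → (ρ.V ⧸ (I • (⊤ : Submodule A ρ.V)))) :
    cfl_sum φ hφ ρ I J hIJ b (fun i => ρ.levelAction I σ (x i)) =
      (ρ.baseChangeAlong φ hφ).levelAction J σ (cfl_sum φ hφ ρ I J hIJ b x) := by
  rw [cfl_sum_apply, cfl_sum_apply, map_sum]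
  exact Finset.sum_congr rfl fun i _ => cfl_t_equivariant φ hφ ρ I J hIJ (b i) σ (x i)

/-- Base change preserves flatness (no finiteness assumption on `A`). -/
theorem cfl_baseChange [Fact p.Prime] (hρ : ρ.IsFlatAt p) (hB : Finite (ResidueField B)) :
    (ρ.baseChangeAlong φ hφ).IsFlatAt p := by
  refine ⟨hB, fun J hJ => ?_⟩
  have hIJ : J.comap φ ≤ J.comap φ := le_rfl
  have hfin : Finite (A ⧸ J.comap φ) :=
    Finite.of_injective (Ideal.quotientMap J φ le_rfl) (Ideal.quotientMap_injective)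
  have hM := hρ.2 (J.comap φ) hfin
  obtain ⟨n, ⟨e⟩⟩ := Finite.exists_equiv_fin (B ⧸ J)
  have hb : ∀ c : B, ∃ i, c - (fun i => Quotient.out (e.symm i)) i ∈ J := by
    intro c
    refine ⟨e (Ideal.Quotient.mk J c), ?_⟩
    rw [← Ideal.Quotient.eq]
    simp only [Equiv.symm_apply_apply]
    exact (Quotient.out_eq _).symm
  exact IsFlatGaloisModule.quot (cfl_pi hM n)
    (cfl_sum φ hφ ρ _ J hIJ fun i => Quotient.out (e.symm i))
    (cfl_sum_surjective φ hφ ρ _ J hIJ _ hb)
    (fun σ x => cfl_sum_equivariant φ hφ ρ _ J hIJ _ σ x)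

/-- Coordinates of an element of `I M` lie in `I`. -/
theorem cfl_repr_mem_of_mem {R M ι : Type} [CommRing R] [AddCommGroup M] [Module R M]
    (b : Module.Basis ι R M) (I : Ideal R) {x : M} (hx : x ∈ I • (⊤ : Submodule R M)) (i : ι) :
    b.repr x i ∈ I := by
  refine Submodule.smul_induction_on hx (fun a ha m _ => ?_) (fun x y hx hy => ?_)
  · rw [map_smul, Finsupp.smul_apply, smul_eq_mul]
    exact I.mul_mem_right _ ha
  · rw [map_add, Finsupp.add_apply]
    exact I.add_mem hx hy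

/-- An element all of whose coordinates lie in `I` lies in `I M`. -/
theorem cfl_mem_of_repr_mem {R M ι : Type} [CommRing R] [AddCommGroup M] [Module R M]
    (b : Module.Basis ι R M) (I : Ideal R) {x : M} (h : ∀ i, b.repr x i ∈ I) :
    x ∈ I • (⊤ : Submodule R M) := by
  rw [← b.linearCombination_repr x, Finsupp.linearCombination_apply]
  exact Submodule.sum_mem _ fun i _ => Submodule.smul_mem_smul (h i) Submodule.mem_top

/-- If `[1 ⊗ v] = 0` in `(B ⊗ V) ⧸ J (B ⊗ V)`, the coordinates of `v` are mapped into `J`. -/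
theorem cfl_t_one_eq_zero (hIJ : I ≤ J.comap φ) {ι : Type} (b : Module.Basis ι A ρ.V) (v : ρ.V)
    (h : cfl_t φ hφ ρ I J hIJ 1 (Submodule.Quotient.mk v) = 0) (i : ι) :
    φ (b.repr v i) ∈ J := by
  letI : Algebra A B := φ.toAlgebra
  rw [cfl_t_mk] at h
  have h1 : (1 : B) ⊗ₜ[A] v ∈ (J • (⊤ : Submodule B (B ⊗[A] ρ.V))) :=
    (Submodule.Quotient.mk_eq_zero _).1 h
  have h2 := cfl_repr_mem_of_mem (b.baseChange B) J h1 i
  rw [Module.Basis.baseChange_repr_tmul, Algebra.smul_def, mul_one,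
    RingHom.algebraMap_toAlgebra] at h2
  exact h2

theorem cfl_t_one_injective (hIJ : I ≤ J.comap φ) (hJI : J.comap φ ≤ I) :
    Function.Injective (cfl_t φ hφ ρ I J hIJ 1) := by
  rw [injective_iff_map_eq_zero]
  intro x hx
  obtain ⟨v, rfl⟩ := Submodule.Quotient.mk_surjective _ x
  rw [Submodule.Quotient.mk_eq_zero]
  exact cfl_mem_of_repr_mem (Module.Free.chooseBasis A ρ.V) I fun i =>
    hJI (cfl_t_one_eq_zero φ hφ ρ I J hIJ _ v hx i)

/-- The map `V → (B ⊗ V) ⧸ ⊥ (B ⊗ V)`, `v ↦ [1 ⊗ v]`. -/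
noncomputable def cfl_psi :
    ρ.V →+ ((ρ.baseChangeAlong φ hφ).V ⧸
      ((⊥ : Ideal B) • (⊤ : Submodule B (ρ.baseChangeAlong φ hφ).V))) :=
  (cfl_t φ hφ ρ ⊥ ⊥ bot_le 1).comp ((⊥ : Ideal A) • (⊤ : Submodule A ρ.V)).mkQ.toAddMonoidHom

theorem cfl_psi_equivariant (σ : AlgebraicClosure ℚ ≃ₐ[ℚ] AlgebraicClosure ℚ) (v : ρ.V) :
    cfl_psi φ hφ ρ (ρ.ρ σ v) = (ρ.baseChangeAlong φ hφ).levelAction ⊥ σ (cfl_psi φ hφ ρ v) :=
  cfl_t_equivariant φ hφ ρ ⊥ ⊥ bot_le 1 σ (Submodule.Quotient.mk v)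

theorem cfl_psi_eq_zero {ι : Type} (b : Module.Basis ι A ρ.V) (v : ρ.V)
    (h : cfl_psi φ hφ ρ v = 0) (i : ι) : φ (b.repr v i) = 0 :=
  cfl_t_one_eq_zero φ hφ ρ ⊥ ⊥ bot_le b v h i

/-- Flatness from an equivariant embedding of `V` in a flat Galois module. -/
theorem cfl_of_injective [Fact p.Prime] (hA : Finite (ResidueField A)) {W : Type}
    [AddCommGroup W] {actW : (AlgebraicClosure ℚ ≃ₐ[ℚ] AlgebraicClosure ℚ) → W → W}
    (hW : IsFlatGaloisModule p W actW) (ψ : ρ.V →+ W) (hψ : Function.Injective ψ)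
    (hequiv : ∀ σ v, ψ (ρ.ρ σ v) = actW σ (ψ v)) : ρ.IsFlatAt p := by
  refine ⟨hA, fun I _ => ?_⟩
  have hV : IsFlatGaloisModule p ρ.V (fun σ v => ρ.ρ σ v) := hW.of_injective ψ hψ hequiv
  exact hV.quot (I • (⊤ : Submodule A ρ.V)).mkQ.toAddMonoidHom
    (Submodule.Quotient.mk_surjective _) (fun σ x => rfl)

/-- Flatness is invariant under equivalence. -/
theorem cfl_of_isEquiv [Fact p.Prime] {ρ ρ' : GaloisRepAdic A} (e : ρ.Equiv ρ')
    (hρ : ρ.IsFlatAt p) : ρ'.IsFlatAt p := by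
  refine ⟨hρ.1, fun I hI => ?_⟩
  have hle : I • (⊤ : Submodule A ρ.V) ≤
      (I • (⊤ : Submodule A ρ'.V)).comap e.toLinearEquiv.toLinearMap := by
    rw [← Submodule.map_le_iff_le_comap, Submodule.map_smul'']
    exact Submodule.smul_mono le_rfl le_top
  have hM : IsFlatGaloisModule p (ρ.V ⧸ (I • (⊤ : Submodule A ρ.V)))
      (fun σ x => ρ.levelAction I σ x) := hρ.2 I hI
  refine IsFlatGaloisModule.quot (act' := fun σ x => ρ'.levelAction I σ x) hM
    (Submodule.mapQ _ _ e.toLinearEquiv.toLinearMap hle).toAddMonoidHom ?_ ?_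
  · intro y
    obtain ⟨v', rfl⟩ := Submodule.Quotient.mk_surjective _ y
    refine ⟨Submodule.Quotient.mk (e.toLinearEquiv.symm v'), ?_⟩
    show Submodule.Quotient.mk (e.toLinearEquiv (e.toLinearEquiv.symm v')) = _
    rw [LinearEquiv.apply_symm_apply]
  · intro σ x
    obtain ⟨v, rfl⟩ := Submodule.Quotient.mk_surjective _ x
    show Submodule.Quotient.mk (e.toLinearEquiv (ρ.ρ σ v)) =
      Submodule.Quotient.mk (ρ'.ρ σ (e.toLinearEquiv v))
    rw [e.map_apply]

end maps

theorem condFlat_isDeformationCondition (𝒪 : Type) [CommRing 𝒪] [IsLocalRing 𝒪]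
    [Finite (IsLocalRing.ResidueField 𝒪)] (p : ℕ) [Fact p.Prime] :
    GaloisRep.IsDeformationCondition 𝒪 (condFlat 𝒪 p) where
  of_isEquiv := fun A _ _ _ _ ρ ρ' e hρ => by
    obtain ⟨e⟩ := e
    exact cfl_of_isEquiv e hρ
  baseChangeAlong := fun A B _ _ _ _ _ _ _ hB φ hφ ρ hρ =>
    cfl_baseChange (φ : A →+* B) hφ ρ hρ
      (cfl_finite_residueField hB.isLocalHom hB.residue_surjective)
  of_baseChangeAlong_injective := fun A B _ _ _ _ _ _ hA hB φ hφ hinj ρ hρ => by
    have hfinB : Finite B := cfl_finite_of_artinian hB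
    have hW : IsFlatGaloisModule p _
        (fun σ x => (ρ.baseChangeAlong (φ : A →+* B) hφ).levelAction ⊥ σ x) :=
      hρ.2 ⊥ cfl_finite_quot_bot
    refine cfl_of_injective ρ (cfl_finite_residueField hA.isLocalHom hA.residue_surjective) hW
      (cfl_psi (φ : A →+* B) hφ ρ) ?_ (cfl_psi_equivariant _ hφ ρ)
    rw [injective_iff_map_eq_zero]
    intro v hv
    have h0 := cfl_psi_eq_zero (φ : A →+* B) hφ ρ (Module.Free.chooseBasis A ρ.V) v hv
    apply (Module.Free.chooseBasis A ρ.V).repr.injective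
    ext i
    rw [map_zero, Finsupp.zero_apply]
    exact hinj (by rw [map_zero]; exact h0 i)
  of_fibreProduct := fun A B C P _ _ _ _ _ _ _ _ _ _ _ _ hA hB hC hP f g pA pB hpA hpB hfg hinj
      hsurj ρ h1 h2 => by
    have hfinA : Finite A := cfl_finite_of_artinian hA
    have hfinB : Finite B := cfl_finite_of_artinian hB
    have hWA : IsFlatGaloisModule p _
        (fun σ x => (ρ.baseChangeAlong (pA : P →+* A) hpA).levelAction ⊥ σ x) :=
      h1.2 ⊥ cfl_finite_quot_bot
    have hWB : IsFlatGaloisModule p _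
        (fun σ x => (ρ.baseChangeAlong (pB : P →+* B) hpB).levelAction ⊥ σ x) :=
      h2.2 ⊥ cfl_finite_quot_bot
    refine cfl_of_injective ρ (cfl_finite_residueField hP.isLocalHom hP.residue_surjective)
      (hWA.prod hWB)
      ((cfl_psi (pA : P →+* A) hpA ρ).prod (cfl_psi (pB : P →+* B) hpB ρ)) ?_ ?_
    · rw [injective_iff_map_eq_zero]
      intro v hv
      have hvA : cfl_psi (pA : P →+* A) hpA ρ v = 0 := congrArg Prod.fst hv
      have hvB : cfl_psi (pB : P →+* B) hpB ρ v = 0 := congrArg Prod.snd hv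
      apply (Module.Free.chooseBasis P ρ.V).repr.injective
      ext i
      rw [map_zero, Finsupp.zero_apply]
      apply hinj
      show (pA _, pB _) = (pA 0, pB 0)
      rw [map_zero, map_zero]
      exact Prod.ext (cfl_psi_eq_zero _ hpA ρ _ v hvA i) (cfl_psi_eq_zero _ hpB ρ _ v hvB i)
    · intro σ v
      exact Prod.ext (cfl_psi_equivariant _ hpA ρ σ v) (cfl_psi_equivariant _ hpB ρ σ v)
  iff_forall_surjective := fun A _ _ _ _ _ hloc hres ρ => by
    constructor
    · intro hρ B _ _ _ hB q hq hqs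
      exact cfl_baseChange (q : A →+* B) hq ρ hρ
        (cfl_finite_residueField hB.isLocalHom hB.residue_surjective)
    · intro H
      refine ⟨cfl_finite_residueField hloc hres, fun I hI => ?_⟩
      by_cases hItop : I = ⊤
      · subst hItop
        have hsub : Subsingleton (ρ.V ⧸ ((⊤ : Ideal A) • (⊤ : Submodule A ρ.V))) := by
          rw [Submodule.top_smul]
          exact Submodule.Quotient.subsingleton_iff.2 rfl
        exact isFlatGaloisModule_of_subsingleton _
      · have hnt : Nontrivial (A ⧸ I) := Ideal.Quotient.nontrivial_iff.2 hItop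
        have hlocal : IsLocalRing (A ⧸ I) :=
          IsLocalRing.of_surjective' (Ideal.Quotient.mk I) Ideal.Quotient.mk_surjective
        have hq : IsLocalHom ((Ideal.Quotient.mkₐ 𝒪 I : A →ₐ[𝒪] A ⧸ I) : A →+* A ⧸ I) :=
          IsLocalHom.of_surjective _ (Ideal.Quotient.mkₐ_surjective 𝒪 I)
        have hB : GaloisRep.IsArtinianTestAlgebra 𝒪 (A ⧸ I) := by
          refine ⟨?_, ?_, inferInstance⟩
          · have : IsLocalHom (Ideal.Quotient.mk I) :=
              IsLocalHom.of_surjective _ Ideal.Quotient.mk_surjective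
            have := hloc
            exact RingHom.isLocalHom_comp (Ideal.Quotient.mk I) (algebraMap 𝒪 A)
          · intro y
            obtain ⟨z, rfl⟩ := IsLocalRing.residue_surjective y
            obtain ⟨a, rfl⟩ := Ideal.Quotient.mk_surjective z
            obtain ⟨c, hc⟩ := hres (residue A a)
            refine ⟨c, ?_⟩
            have h1 : a - algebraMap 𝒪 A c ∈ maximalIdeal A := by
              rw [← IsLocalRing.residue_eq_zero_iff, map_sub, sub_eq_zero]
              exact hc.symm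
            have h2 : Ideal.Quotient.mk I (a - algebraMap 𝒪 A c) ∈ maximalIdeal (A ⧸ I) := by
              have : IsLocalHom (Ideal.Quotient.mk I) :=
                IsLocalHom.of_surjective _ Ideal.Quotient.mk_surjective
              exact map_nonunit (Ideal.Quotient.mk I) _ h1
            rw [← IsLocalRing.residue_eq_zero_iff] at h2
            rw [map_sub, map_sub, sub_eq_zero] at h2
            exact h2.symm
        have hflat := H hB (Ideal.Quotient.mkₐ 𝒪 I) hq (Ideal.Quotient.mkₐ_surjective 𝒪 I)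
        have hW : IsFlatGaloisModule p _ (fun σ x => (ρ.baseChangeAlong
            ((Ideal.Quotient.mkₐ 𝒪 I : A →ₐ[𝒪] A ⧸ I) : A →+* A ⧸ I) hq).levelAction ⊥ σ x) :=
          hflat.2 ⊥ cfl_finite_quot_bot
        have hIJ : I ≤ (⊥ : Ideal (A ⧸ I)).comap
            ((Ideal.Quotient.mkₐ 𝒪 I : A →ₐ[𝒪] A ⧸ I) : A →+* A ⧸ I) := by
          intro a ha
          rw [Ideal.mem_comap, Ideal.mem_bot]
          exact Ideal.Quotient.eq_zero_iff_mem.2 ha
        have hJI : (⊥ : Ideal (A ⧸ I)).comap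
            ((Ideal.Quotient.mkₐ 𝒪 I : A →ₐ[𝒪] A ⧸ I) : A →+* A ⧸ I) ≤ I := by
          intro a ha
          rw [Ideal.mem_comap, Ideal.mem_bot] at ha
          exact Ideal.Quotient.eq_zero_iff_mem.1 ha
        exact IsFlatGaloisModule.of_injective hW (cfl_t _ hq ρ I ⊥ hIJ 1)
          (cfl_t_one_injective _ hq ρ I ⊥ hIJ hJI)
          (fun σ x => cfl_t_equivariant _ hq ρ I ⊥ hIJ 1 σ x)

end Fermat.Agent.S59
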