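/-
Cluster J (S59), J3d: "strict-ordinary at `p`" is a deformation condition (`p` odd).
Owner: helper31.

Route: strict-ordinary means `ρ|D_p ~ (χ_cyc z, *; 0, z)`.  For `p` odd there is `σ₀` in inertia at
`p` acting on `μ_p` by inversion (`StrictOrdArith`), so the line is canonical: it is the image of
`ρ σ₀ - 1`.  With respect to a basis adapted to this line all clauses are equational in the matrix
entries (`StrictOrdAlg`), hence descend along jointly injective families of maps to Artinian rings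
(pairs; `so_of_pair`) and along `A → A ⧸ 𝔪ⁿ` for Noetherian local `A` (`so_of_adic`, Krull).
-/
import Fermat.Agent.S59.Conditions
import Fermat.Agent.S59.DefCond.StrictOrdAlg

set_option autoImplicit false
set_option linter.style.haveILetI false
set_option linter.unusedSectionVars false
set_option linter.unusedVariables false

namespace Fermat.Agent.S59

open Fermat.Agent.Cyclo TensorProduct IsLocalRing Fermat.Agent.S59.SO

namespace SO

section Local

variable {A B : Type} [CommRing A] [IsLocalRing A] [CommRing B] [IsLocalRing B]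

theorem natCast_mem_maximalIdeal_of_map (φ : A →+* B) {p : ℕ}
    (h : (p : B) ∈ maximalIdeal B) : (p : A) ∈ maximalIdeal A := by
  rw [IsLocalRing.mem_maximalIdeal, mem_nonunits_iff] at h ⊢
  intro hu
  exact h (by simpa using hu.map φ)

theorem natCast_mem_maximalIdeal_map (φ : A →+* B) (hφ : IsLocalHom φ) {p : ℕ}
    (h : (p : A) ∈ maximalIdeal A) : (p : B) ∈ maximalIdeal B := by
  rw [IsLocalRing.mem_maximalIdeal, mem_nonunits_iff] at h ⊢
  intro hu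
  apply h
  apply hφ.map_nonunit
  simpa using hu

theorem exists_natCast_pow_eq_zero [IsArtinianRing B] {p : ℕ} (h : (p : B) ∈ maximalIdeal B) :
    ∃ N : ℕ, ((p ^ N : ℕ) : B) = 0 := by
  have hnil : IsNilpotent (Ideal.jacobson (⊥ : Ideal B)) :=
    IsArtinianRing.isNilpotent_jacobson_bot
  rw [IsLocalRing.jacobson_eq_maximalIdeal ⊥ bot_ne_top] at hnil
  obtain ⟨N, hN⟩ := hnil
  refine ⟨N, ?_⟩
  have h1 : (p : B) ^ N ∈ maximalIdeal B ^ N := Ideal.pow_mem_pow h N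
  rw [hN, Ideal.zero_eq_bot, Ideal.mem_bot] at h1
  rw [Nat.cast_pow]
  exact h1

theorem natCast_pow_eq_zero_of_le {p N N' : ℕ} (hle : N ≤ N') (h : ((p ^ N : ℕ) : B) = 0) :
    ((p ^ N' : ℕ) : B) = 0 := by
  obtain ⟨k, rfl⟩ := Nat.exists_eq_add_of_le hle
  rw [pow_add, Nat.cast_mul, h, zero_mul]

end Local

section Rho

variable {A B : Type} [CommRing A] [IsLocalRing A] [CommRing B] [IsLocalRing B]

theorem so_of_isEquiv {ρ ρ' : GaloisRepAdic A} (e : ρ.IsEquiv ρ') {p : ℕ}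
    (h : ρ.IsStrictOrdinaryAt p) : ρ'.IsStrictOrdinaryAt p := by
  obtain ⟨e⟩ := e
  refine ⟨h.1, fun P hP => ?_⟩
  have h1 : SOAt ρ.ρ p P := h.2 P hP
  obtain ⟨w, hw⟩ := h1.exists_soTri
  exact (hw.map_equiv e.toLinearEquiv e.map_apply).soAt

theorem so_baseChange (φ : A →+* B) (hφ : IsLocalHom φ) {ρ : GaloisRepAdic A} {p : ℕ}
    (h : ρ.IsStrictOrdinaryAt p) : (ρ.baseChangeAlong φ hφ).IsStrictOrdinaryAt p := by
  letI : Algebra A B := φ.toAlgebra
  refine ⟨natCast_mem_maximalIdeal_map φ hφ h.1, fun P hP => ?_⟩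
  have h1 : SOAt ρ.ρ p P := h.2 P hP
  exact SOAt.baseChange (r := ρ.ρ) (ρ.baseChangeAlong φ hφ).ρ (fun σ => rfl) h1

theorem so_pull (φ : A →+* B) (hφ : IsLocalHom φ) {ρ : GaloisRepAdic A} {p : ℕ}
    (hB : (ρ.baseChangeAlong φ hφ).IsStrictOrdinaryAt p) {P : ValuationSubring Qb}
    (hP : P.LiesOverPrime p) (w : Module.Basis (Fin 2) A ρ.V) {σ₀ : GQ}
    (hσ₀ : σ₀ ∈ P.inertiaSubgroupIn ℚ) (hw : w 0 ∈ LinearMap.range (ρ.ρ σ₀ - 1)) :
    (∀ σ ∈ P.decompositionSubgroup ℚ, φ (w.repr (ρ.ρ σ (w 0)) 1) = 0) ∧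
    (∀ σ ∈ P.inertiaSubgroupIn ℚ, φ (w.repr (ρ.ρ σ (w 1)) 1) = 1) ∧
    (∀ σ ∈ P.decompositionSubgroup ℚ,
      CycRel B p σ (φ (w.repr (ρ.ρ σ (w 0)) 0)) (φ (w.repr (ρ.ρ σ (w 1)) 1))) := by
  letI : Algebra A B := φ.toAlgebra
  have h1 : SOAt (ρ.baseChangeAlong φ hφ).ρ p P := hB.2 P hP
  exact soTri_pull (r := ρ.ρ) (ρ.baseChangeAlong φ hφ).ρ (fun σ => rfl) h1 w hσ₀ hw

theorem so_exists_basis (φ : A →+* B) (hφ : IsLocalHom φ) {ρ : GaloisRepAdic A} {p : ℕ}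
    [Fact p.Prime] (hp2 : p ≠ 2)
    (hB : (ρ.baseChangeAlong φ hφ).IsStrictOrdinaryAt p) {P : ValuationSubring Qb}
    (hP : P.LiesOverPrime p) {σ₀ : GQ} (hσ₀ : σ₀ ∈ P.inertiaSubgroupIn ℚ)
    (hinv : ∀ μ : Qb, μ ^ p = 1 → σ₀ μ = μ⁻¹) :
    ∃ w : Module.Basis (Fin 2) A ρ.V, w 0 ∈ LinearMap.range (ρ.ρ σ₀ - 1) := by
  letI : Algebra A B := φ.toAlgebra
  obtain ⟨a₀, ha₀⟩ := SOArith.exists_cycExp p σ₀ 1
  have hne := SOArith.inv_exponent_ne_one p hp2 hinv ha₀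
  have hloc : IsLocalHom (algebraMap A B) := hφ
  have h1 : SOAt (ρ.baseChangeAlong φ hφ).ρ p P := hB.2 P hP
  exact exists_basis_of_soAt hloc (r := ρ.ρ) (ρ.baseChangeAlong φ hφ).ρ (fun σ => rfl) hB.1 h1
    (Module.finBasisOfFinrankEq A ρ.V ρ.finrank_eq) hσ₀ ha₀ hne

end Rho

/-! ### Descent along a jointly injective pair of maps to Artinian local rings -/

section Pair

variable {A B₁ B₂ : Type} [CommRing A] [IsLocalRing A] [CommRing B₁] [IsLocalRing B₁]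
  [CommRing B₂] [IsLocalRing B₂]

theorem so_of_pair (φ₁ : A →+* B₁) (hφ₁ : IsLocalHom φ₁) (φ₂ : A →+* B₂) (hφ₂ : IsLocalHom φ₂)
    (hsep : ∀ y : A, φ₁ y = 0 → φ₂ y = 0 → y = 0) [IsArtinianRing B₁] [IsArtinianRing B₂]
    {ρ : GaloisRepAdic A} {p : ℕ} [Fact p.Prime] (hp2 : p ≠ 2)
    (h₁ : (ρ.baseChangeAlong φ₁ hφ₁).IsStrictOrdinaryAt p)
    (h₂ : (ρ.baseChangeAlong φ₂ hφ₂).IsStrictOrdinaryAt p) : ρ.IsStrictOrdinaryAt p := by
  refine ⟨natCast_mem_maximalIdeal_of_map φ₁ h₁.1, fun P hP => ?_⟩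
  obtain ⟨σ₀, hσ₀, hinv⟩ := SOArith.exists_inertia_inv_on_roots p P hP
  obtain ⟨w, hw⟩ := so_exists_basis φ₁ hφ₁ hp2 h₁ hP hσ₀ hinv
  obtain ⟨d₁, i₁, c₁⟩ := so_pull φ₁ hφ₁ h₁ hP w hσ₀ hw
  obtain ⟨d₂, i₂, c₂⟩ := so_pull φ₂ hφ₂ h₂ hP w hσ₀ hw
  obtain ⟨N₁, hN₁⟩ := exists_natCast_pow_eq_zero h₁.1
  obtain ⟨N₂, hN₂⟩ := exists_natCast_pow_eq_zero h₂.1
  have hN₁' : ((p ^ (max N₁ N₂) : ℕ) : B₁) = 0 :=
    natCast_pow_eq_zero_of_le (le_max_left _ _) hN₁
  have hN₂' : ((p ^ (max N₁ N₂) : ℕ) : B₂) = 0 :=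
    natCast_pow_eq_zero_of_le (le_max_right _ _) hN₂
  have hNA : ((p ^ (max N₁ N₂) : ℕ) : A) = 0 :=
    hsep _ (by rw [map_natCast]; exact hN₁') (by rw [map_natCast]; exact hN₂')
  have htri : SOTri ρ.ρ p P w := by
    refine ⟨fun σ hσ => hsep _ (d₁ σ hσ) (d₂ σ hσ), fun σ hσ => ?_, fun σ hσ => ?_⟩
    · rw [← sub_eq_zero]
      apply hsep
      · rw [map_sub, map_one φ₁, sub_eq_zero]; exact i₁ σ hσ
      · rw [map_sub, map_one φ₂, sub_eq_zero]; exact i₂ σ hσ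
    · obtain ⟨aN, haN⟩ := SOArith.exists_cycExp p σ (max N₁ N₂)
      rw [cycRel_iff_of_pow_eq_zero hNA σ haN]
      have e₁ := (cycRel_iff_of_pow_eq_zero hN₁' σ haN _ _).mp (c₁ σ hσ)
      have e₂ := (cycRel_iff_of_pow_eq_zero hN₂' σ haN _ _).mp (c₂ σ hσ)
      rw [← sub_eq_zero]
      apply hsep
      · rw [map_sub, map_mul, map_natCast, e₁, sub_self]
      · rw [map_sub, map_mul, map_natCast, e₂, sub_self]
  exact htri.soAt

end Pair

/-! ### Descent along `A → A ⧸ 𝔪ⁿ` for a Noetherian local ring -/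

section Adic

variable {A : Type} [CommRing A] [IsLocalRing A] [IsNoetherianRing A]

theorem eq_zero_of_forall_mk_pow_eq_zero {y : A}
    (h : ∀ n : ℕ, n ≠ 0 → Ideal.Quotient.mk (maximalIdeal A ^ n) y = 0) : y = 0 := by
  have hK : (⨅ i : ℕ, maximalIdeal A ^ i) = ⊥ :=
    Ideal.iInf_pow_eq_bot_of_isLocalRing (maximalIdeal A) (maximalIdeal.isMaximal A).ne_top
  have hy : y ∈ (⨅ i : ℕ, maximalIdeal A ^ i) := by
    rw [Ideal.mem_iInf]
    intro n
    by_cases hn : n = 0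
    · subst hn; rw [pow_zero, Ideal.one_eq_top]; exact Submodule.mem_top
    · exact Ideal.Quotient.eq_zero_iff_mem.mp (h n hn)
  rw [hK] at hy
  exact hy

/-- Ideals of a Noetherian local ring are closed in the adic topology. -/
theorem mem_of_forall_mk_pow_mem (J : Ideal A) {y : A}
    (h : ∀ n : ℕ, n ≠ 0 →
      Ideal.Quotient.mk (maximalIdeal A ^ n) y ∈ J.map (Ideal.Quotient.mk (maximalIdeal A ^ n))) :
    y ∈ J := by
  have hK : (⨅ i : ℕ, maximalIdeal A ^ i • ⊤ : Submodule A (A ⧸ J)) = ⊥ :=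
    Ideal.iInf_pow_smul_eq_bot_of_isLocalRing (maximalIdeal A) (maximalIdeal.isMaximal A).ne_top
  have hy : (Ideal.Quotient.mk J y : A ⧸ J) ∈
      (⨅ i : ℕ, maximalIdeal A ^ i • ⊤ : Submodule A (A ⧸ J)) := by
    rw [Submodule.mem_iInf]
    intro n
    by_cases hn : n = 0
    · subst hn
      rw [pow_zero, Ideal.one_eq_top, Submodule.top_smul]
      exact Submodule.mem_top
    · obtain ⟨j, hj, hjy⟩ := (Ideal.mem_map_iff_of_surjective _
        Ideal.Quotient.mk_surjective).mp (h n hn)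
      have ht : y - j ∈ maximalIdeal A ^ n := by
        rw [← Ideal.Quotient.eq_zero_iff_mem, map_sub, hjy, sub_self]
      have h1 : (Ideal.Quotient.mk J y : A ⧸ J) = (y - j) • (Ideal.Quotient.mk J 1 : A ⧸ J) := by
        rw [← Ideal.Quotient.mk_eq_mk, ← Ideal.Quotient.mk_eq_mk, ← Submodule.Quotient.mk_smul,
          Ideal.Quotient.mk_eq_mk, Ideal.Quotient.mk_eq_mk, smul_eq_mul, mul_one, map_sub,
          Ideal.Quotient.eq_zero_iff_mem.mpr hj, sub_zero]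
      rw [h1]
      exact Submodule.smul_mem_smul ht Submodule.mem_top
  rw [hK, Submodule.mem_bot, Ideal.Quotient.eq_zero_iff_mem] at hy
  exact hy

theorem so_of_adic {ρ : GaloisRepAdic A} {p : ℕ} [Fact p.Prime] (hp2 : p ≠ 2)
    (H : ∀ n : ℕ, n ≠ 0 → ∃ (_ : IsLocalRing (A ⧸ maximalIdeal A ^ n))
      (q : A →+* A ⧸ maximalIdeal A ^ n) (hq : IsLocalHom q),
      (∀ a, q a = Ideal.Quotient.mk (maximalIdeal A ^ n) a) ∧
        (ρ.baseChangeAlong q hq).IsStrictOrdinaryAt p) : ρ.IsStrictOrdinaryAt p := by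
  obtain ⟨hl1, q1, hq1, hqe1, hso1⟩ := H 1 one_ne_zero
  refine ⟨natCast_mem_maximalIdeal_of_map q1 hso1.1, fun P hP => ?_⟩
  obtain ⟨σ₀, hσ₀, hinv⟩ := SOArith.exists_inertia_inv_on_roots p P hP
  obtain ⟨w, hw⟩ := so_exists_basis q1 hq1 hp2 hso1 hP hσ₀ hinv
  have htri : SOTri ρ.ρ p P w := by
    refine ⟨fun σ hσ => ?_, fun σ hσ => ?_, fun σ hσ => ?_⟩
    · apply eq_zero_of_forall_mk_pow_eq_zero
      intro n hn
      obtain ⟨hl, q, hq, hqe, hso⟩ := H n hn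
      rw [← hqe]
      exact (so_pull q hq hso hP w hσ₀ hw).1 σ hσ
    · rw [← sub_eq_zero]
      apply eq_zero_of_forall_mk_pow_eq_zero
      intro n hn
      obtain ⟨hl, q, hq, hqe, hso⟩ := H n hn
      rw [← hqe, map_sub, map_one q, sub_eq_zero]
      exact (so_pull q hq hso hP w hσ₀ hw).2.1 σ hσ
    · intro m a ha
      apply mem_of_forall_mk_pow_mem
      intro n hn
      obtain ⟨hl, q, hq, hqe, hso⟩ := H n hn
      have h1 := (so_pull q hq hso hP w hσ₀ hw).2.2 σ hσ m a ha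
      rw [Ideal.map_span, Set.image_singleton, ← hqe, ← hqe, map_sub, map_mul, map_natCast,
        map_natCast]
      exact h1
  exact htri.soAt

end Adic

/-! ### Artinian quotients as test algebras -/

section Test

variable {𝒪 : Type} [CommRing 𝒪] [IsLocalRing 𝒪] {A : Type} [CommRing A] [IsLocalRing A]
  [IsNoetherianRing A] [Algebra 𝒪 A]

theorem so_maximalIdeal_pow_ne_top {n : ℕ} (hn : n ≠ 0) : maximalIdeal A ^ n ≠ ⊤ := by
  intro h
  have hle : maximalIdeal A ^ n ≤ maximalIdeal A := Ideal.pow_le_self hn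
  rw [h] at hle
  exact (IsLocalRing.maximalIdeal.isMaximal A).ne_top (top_le_iff.1 hle)

theorem so_isLocalRing_quotient_pow {n : ℕ} (hn : n ≠ 0) :
    IsLocalRing (A ⧸ maximalIdeal A ^ n) :=
  haveI : Nontrivial (A ⧸ maximalIdeal A ^ n) :=
    Ideal.Quotient.nontrivial_iff.mpr (so_maximalIdeal_pow_ne_top hn)
  IsLocalRing.of_surjective' (Ideal.Quotient.mk _) Ideal.Quotient.mk_surjective

theorem so_isArtinianTestAlgebra_quotient_pow (h1 : IsLocalHom (algebraMap 𝒪 A))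
    (h2 : Function.Surjective (residue A ∘ algebraMap 𝒪 A)) (n : ℕ)
    [IsLocalRing (A ⧸ maximalIdeal A ^ n)] :
    GaloisRep.IsArtinianTestAlgebra 𝒪 (A ⧸ maximalIdeal A ^ n) := by
  haveI hq : IsLocalHom (Ideal.Quotient.mk (maximalIdeal A ^ n)) :=
    IsLocalHom.of_surjective _ Ideal.Quotient.mk_surjective
  refine ⟨⟨fun a ha => ?_⟩, ?_, ?_⟩
  · have h : IsUnit (Ideal.Quotient.mk (maximalIdeal A ^ n) (algebraMap 𝒪 A a)) := ha
    exact h1.map_nonunit a (hq.map_nonunit _ h)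
  · intro y
    obtain ⟨b, rfl⟩ := IsLocalRing.residue_surjective y
    obtain ⟨a, rfl⟩ := Ideal.Quotient.mk_surjective b
    obtain ⟨c, hc⟩ := h2 (residue A a)
    refine ⟨c, ?_⟩
    have hc' : algebraMap 𝒪 A c - a ∈ maximalIdeal A := by
      rw [← IsLocalRing.residue_eq_zero_iff, map_sub, sub_eq_zero]
      exact hc
    show residue _ (Ideal.Quotient.mk (maximalIdeal A ^ n) (algebraMap 𝒪 A c)) =
      residue _ (Ideal.Quotient.mk (maximalIdeal A ^ n) a)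
    rw [← sub_eq_zero, ← map_sub, ← map_sub, IsLocalRing.residue_eq_zero_iff]
    rw [IsLocalRing.mem_maximalIdeal, mem_nonunits_iff] at hc' ⊢
    exact fun hu => hc' (hq.map_nonunit _ hu)
  · rw [isArtinianRing_iff_isNilpotent_maximalIdeal]
    refine ⟨n, ?_⟩
    rw [Ideal.zero_eq_bot, eq_bot_iff]
    have hle : maximalIdeal (A ⧸ maximalIdeal A ^ n) ≤
        (maximalIdeal A).map (Ideal.Quotient.mk (maximalIdeal A ^ n)) := by
      intro y hy
      obtain ⟨a, rfl⟩ := Ideal.Quotient.mk_surjective y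
      apply Ideal.mem_map_of_mem
      rw [IsLocalRing.mem_maximalIdeal, mem_nonunits_iff] at hy ⊢
      exact fun hu => hy (hu.map _)
    calc maximalIdeal (A ⧸ maximalIdeal A ^ n) ^ n
        ≤ ((maximalIdeal A).map (Ideal.Quotient.mk (maximalIdeal A ^ n))) ^ n :=
          Ideal.pow_right_mono hle n
      _ = (maximalIdeal A ^ n).map (Ideal.Quotient.mk (maximalIdeal A ^ n)) :=
          (Ideal.map_pow _ _ _).symm
      _ = ⊥ := Ideal.map_quotient_self _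

end Test

end SO

/-- **Strict-ordinary at `p` is a deformation condition** (`p` odd). -/
theorem condStrictOrd_isDeformationCondition (𝒪 : Type) [CommRing 𝒪] [IsLocalRing 𝒪]
    (p : ℕ) [Fact p.Prime] (hp2 : p ≠ 2) :
    GaloisRep.IsDeformationCondition 𝒪 (condStrictOrd 𝒪 p) where
  of_isEquiv := fun A _ _ _ hA ρ ρ' e hρ => SO.so_of_isEquiv e hρ
  baseChangeAlong := fun A B _ _ _ _ _ _ hA hB φ hφ ρ hρ =>
    SO.so_baseChange (φ : A →+* B) hφ hρ
  of_baseChangeAlong_injective := fun A B _ _ _ _ _ _ hA hB φ hφ hinj ρ hρ => by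
    haveI := hB.isArtinian
    refine SO.so_of_pair (φ : A →+* B) hφ (φ : A →+* B) hφ (fun y h _ => ?_) hp2 hρ hρ
    apply hinj
    rw [map_zero]
    exact h
  of_fibreProduct := fun A B C P _ _ _ _ _ _ _ _ _ _ _ _ hA hB hC hP f g pA pB hpA hpB hfg hinj
      hsurj ρ h1 h2 => by
    haveI := hA.isArtinian
    haveI := hB.isArtinian
    refine SO.so_of_pair (pA : P →+* A) hpA (pB : P →+* B) hpB (fun y hy1 hy2 => ?_) hp2 h1 h2
    apply hinj
    show (pA y, pB y) = (pA 0, pB 0)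
    rw [map_zero, map_zero]
    exact Prod.ext hy1 hy2
  iff_forall_surjective := fun A _ _ _ _ _ hloc hres ρ => by
    constructor
    · intro hρ B _ _ _ hB q hq hqs
      exact SO.so_baseChange (q : A →+* B) hq hρ
    · intro H
      refine SO.so_of_adic hp2 fun n hn => ?_
      haveI hl : IsLocalRing (A ⧸ maximalIdeal A ^ n) := SO.so_isLocalRing_quotient_pow hn
      have hq : IsLocalHom ((Ideal.Quotient.mkₐ 𝒪 (maximalIdeal A ^ n) :
          A →ₐ[𝒪] A ⧸ maximalIdeal A ^ n) : A →+* A ⧸ maximalIdeal A ^ n) :=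
        IsLocalHom.of_surjective _ (Ideal.Quotient.mkₐ_surjective 𝒪 _)
      exact ⟨hl, _, hq, fun a => rfl,
        H (SO.so_isArtinianTestAlgebra_quotient_pow hloc hres n)
          (Ideal.Quotient.mkₐ 𝒪 (maximalIdeal A ^ n)) hq (Ideal.Quotient.mkₐ_surjective 𝒪 _)⟩

end Fermat.Agent.S59
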