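import Mathlib
import Fermat.Agent.Lib.KFin.Main
import Fermat.Agent.S53.MatRepCore

/-!
# Cluster J (S59), J3t: finiteness of the tangent space, auxiliary results

Deformations to the dual numbers `k[ε]` of a residual representation `ρbar`, unramified outside
`S`, all factor through one finite quotient of `G_ℚ` (by `KFin.kfin`): hence there are finitely
many of them up to equivalence.
-/

set_option autoImplicit false

open IsLocalRing Fermat.Agent.S53 Fermat.Agent.FrobExists

namespace Fermat.Agent.KFin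

section DualNumber

variable {k : Type} [Field k]

theorem kf_maximalIdeal_sq : (maximalIdeal (DualNumber k)) ^ 2 = ⊥ := by
  rw [DualNumber.maximalIdeal_eq_span_singleton_eps, Ideal.span_singleton_pow, sq,
    DualNumber.eps_mul_eps]
  simp

theorem kf_mul_eq_zero_of_mem {x y : DualNumber k} (hx : x ∈ maximalIdeal (DualNumber k))
    (hy : y ∈ maximalIdeal (DualNumber k)) : x * y = 0 := by
  have h : x * y ∈ maximalIdeal (DualNumber k) ^ 2 := by
    rw [sq]
    exact Ideal.mul_mem_mul hx hy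
  rwa [kf_maximalIdeal_sq, Ideal.mem_bot] at h

theorem kf_matrix_mul_eq_zero {A B : Matrix (Fin 2) (Fin 2) (DualNumber k)}
    (hA : ∀ i j, A i j ∈ maximalIdeal (DualNumber k))
    (hB : ∀ i j, B i j ∈ maximalIdeal (DualNumber k)) : A * B = 0 := by
  refine Matrix.ext fun i j => ?_
  rw [Matrix.mul_apply]
  exact Finset.sum_eq_zero fun l _ => kf_mul_eq_zero_of_mem (hA i l) (hB l j)

theorem kf_one_add_pow {R : Type*} [Ring R] {a : R} (ha : a * a = 0) (n : ℕ) :
    (1 + a) ^ n = 1 + n • a := by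
  induction n with
  | zero => simp
  | succ n ih =>
    rw [pow_succ, ih, mul_add, mul_one, add_mul, one_mul, smul_mul_assoc, ha, smul_zero, add_zero,
      succ_nsmul]
    abel

theorem kf_natCast_eq_zero (p : ℕ) [CharP k p] : ((p : ℕ) : DualNumber k) = 0 := by
  have h : ((p : ℕ) : DualNumber k) = algebraMap k (DualNumber k) ((p : ℕ) : k) := by
    rw [map_natCast]
  rw [h, CharP.cast_eq_zero, map_zero]

/-- **One level for all deformations to the dual numbers.** -/
theorem kf_exists_level (p : ℕ) (hp : p.Prime) [CharP k p] (S : Finset ℕ) (H : Subgroup GQ)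
    (hH : ∃ L₀ : IntermediateField ℚ Qb, FiniteDimensional ℚ L₀ ∧ L₀.fixingSubgroup ≤ H) :
    ∃ F : IntermediateField ℚ Qb, FiniteDimensional ℚ F ∧
      ∀ r : GQ →* Matrix (Fin 2) (Fin 2) (DualNumber k), MatAdicContinuous r →
        (∀ σ, r σ = 1 → σ ∈ H) →
        (∀ σ ∈ H, ∀ i j, (r σ - 1) i j ∈ maximalIdeal (DualNumber k)) →
        (∀ q : ℕ, q.Prime → q ∉ S → ∀ A : ValuationSubring Qb, A.LiesOverPrime q →
          ∀ σ ∈ A.inertiaSubgroupIn ℚ, r σ = 1) →
        ∀ σ ∈ F.fixingSubgroup, r σ = 1 := by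
  obtain ⟨F, hFfin, -, hF⟩ := kfin p hp S H hH
  refine ⟨F, hFfin, fun r hr hrH hHr hunr σ hσ => ?_⟩
  have hcommute : ∀ σ ∈ H, ∀ τ ∈ H, r σ * r τ = r τ * r σ := by
    intro σ hσ τ hτ
    have h1 := kf_matrix_mul_eq_zero (hHr σ hσ) (hHr τ hτ)
    have h2 := kf_matrix_mul_eq_zero (hHr τ hτ) (hHr σ hσ)
    have h3 : r σ * r τ - r τ * r σ = (r σ - 1) * (r τ - 1) - (r τ - 1) * (r σ - 1) := by
      noncomm_ring
    rw [h1, h2, sub_zero] at h3
    exact sub_eq_zero.mp h3
  have hmem : σ ∈ r.ker := by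
    refine hF r.ker (fun σ hσ => hrH σ (MonoidHom.mem_ker.mp hσ)) ?_ ?_ ?_ ?_ hσ
    · obtain ⟨L, hL, h⟩ := hr 2
      refine ⟨L, hL, fun σ hσ => ?_⟩
      rw [MonoidHom.mem_ker]
      have h1 := h σ ((IntermediateField.mem_fixingSubgroup_iff L σ).mp hσ)
      refine Matrix.ext fun i j => ?_
      have h2 := h1 i j
      rw [kf_maximalIdeal_sq, Ideal.mem_bot, Matrix.sub_apply] at h2
      exact sub_eq_zero.mp h2
    · intro σ hσ τ hτ
      rw [MonoidHom.mem_ker]
      have h1 : σ * τ * σ⁻¹ * τ⁻¹ = (σ * τ) * (τ * σ)⁻¹ := by group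
      rw [h1, map_mul, map_mul, hcommute σ hσ τ hτ, ← map_mul, ← map_mul, mul_inv_cancel,
        map_one]
    · intro σ hσ
      rw [MonoidHom.mem_ker, map_pow]
      have h0 := kf_matrix_mul_eq_zero (hHr σ hσ) (hHr σ hσ)
      have h1 : r σ = 1 + (r σ - 1) := by abel
      rw [h1, kf_one_add_pow h0, ← Nat.cast_smul_eq_nsmul (DualNumber k), kf_natCast_eq_zero p,
        zero_smul, add_zero]
    · intro q hq hqS A hA σ hσ
      exact MonoidHom.mem_ker.mpr (hunr q hq hqS A hA σ hσ)
  exact MonoidHom.mem_ker.mp hmem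

end DualNumber

section Quotient

variable {k : Type} [Field k]

theorem kf_isEquiv_of_toMat_eq {A : Type} [CommRing A] [IsLocalRing A] (ρ ρ' : GaloisRepAdic A)
    (b : Module.Basis (Fin 2) A ρ.V) (b' : Module.Basis (Fin 2) A ρ'.V)
    (h : toMat ρ b = toMat ρ' b') : ρ.IsEquiv ρ' := by
  have key : ∀ (r r' : (AlgebraicClosure ℚ ≃ₐ[ℚ] AlgebraicClosure ℚ) →* Matrix (Fin 2) (Fin 2) A)
      (hr : MatAdicContinuous r) (hr' : MatAdicContinuous r'), r = r' →
      ofMat r hr = ofMat r' hr' := by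
    intro r r' hr hr' h
    subst h
    rfl
  have e1 := isEquiv_ofMat_toMat ρ b
  have e2 := isEquiv_ofMat_toMat ρ' b'
  rw [← key _ _ (toMat_adicContinuous ρ b) (toMat_adicContinuous ρ' b') h] at e2
  obtain ⟨E1⟩ := e1
  obtain ⟨E2⟩ := e2
  exact ⟨E1.trans E2.symm⟩

/-- **Finiteness of the set of deformations to the dual numbers unramified outside `S`.** -/
theorem kf_finite_quotient [Finite k] (ψ : k →+* ResidueField (DualNumber k))
    (ρbar : ResidualGaloisRep k) (S : Finset ℕ)
    {X : Type*} (f : X → GaloisRepAdic (DualNumber k))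
    (hunr : ∀ x, ∀ q : ℕ, q.Prime → q ∉ S → (f x).IsUnramifiedAt q)
    (hres : ∀ x, (f x).residual.IsEquiv (ρbar.baseChangeAlong ψ))
    (s : Setoid X) (hs : ∀ x y, (f x).IsEquiv (f y) → s.r x y) :
    Finite (Quotient s) := by
  classical
  obtain ⟨p, hpchar⟩ := CharP.exists k
  have hp : p.Prime :=
    (CharP.char_is_prime_or_zero k p).resolve_right (CharP.char_ne_zero_of_finite k p)
  obtain ⟨bbar⟩ := exists_basis_residual ρbar
  let H : Subgroup GQ := ρbar.ρ.ker
  have hH : ∃ L₀ : IntermediateField ℚ Qb, FiniteDimensional ℚ L₀ ∧ L₀.fixingSubgroup ≤ H := by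
    obtain ⟨L, hL, h⟩ := ρbar.factorsThroughFiniteLevel
    exact ⟨L, hL, fun σ hσ =>
      MonoidHom.mem_ker.mpr (h σ ((IntermediateField.mem_fixingSubgroup_iff L σ).mp hσ))⟩
  obtain ⟨F, hFfin, hF⟩ := kf_exists_level (k := k) p hp S H hH
  have hb : ∀ x, ∃ b : Module.Basis (Fin 2) (DualNumber k) (f x).V, ∀ σ i j,
      residue (DualNumber k) (toMat (f x) b σ i j) = ψ (resToMat ρbar bbar σ i j) := fun x =>
    exists_basis_lifting (f x) ρbar ψ bbar (hres x)
  choose b hb using hb
  have hone : ∀ i j : Fin 2, residue (DualNumber k) ((1 : Matrix (Fin 2) (Fin 2) (DualNumber k)) i j)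
      = ψ ((1 : Matrix (Fin 2) (Fin 2) k) i j) := by
    intro i j
    by_cases hij : i = j
    · subst hij
      rw [Matrix.one_apply_eq, Matrix.one_apply_eq, map_one, map_one]
    · rw [Matrix.one_apply_ne hij, Matrix.one_apply_ne hij, map_zero, map_zero]
  have htriv : ∀ x, ∀ σ ∈ F.fixingSubgroup, toMat (f x) (b x) σ = 1 := by
    intro x
    apply hF (toMat (f x) (b x)) (toMat_adicContinuous _ _)
    · intro σ hσ
      rw [MonoidHom.mem_ker]
      have h1 : resToMat ρbar bbar σ = 1 := by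
        refine Matrix.ext fun i j => ?_
        apply ψ.injective
        rw [← hb x σ i j, hσ, hone]
      rw [resToMat_apply] at h1
      apply (LinearMap.toMatrix bbar bbar).injective
      rw [h1, LinearMap.toMatrix_one]
    · intro σ hσ i j
      have h1 : resToMat ρbar bbar σ = 1 := by
        rw [resToMat_apply, MonoidHom.mem_ker.mp hσ, LinearMap.toMatrix_one]
      rw [← residue_eq_zero_iff, Matrix.sub_apply, map_sub, hb x σ i j, h1, hone, sub_self]
    · intro q hq hqS A hA σ hσ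
      rw [toMat_apply, hunr x q hq hqS A hA σ hσ, LinearMap.toMatrix_one]
  have hfinΦ : F.fixingSubgroup.FiniteIndex := kf_finiteIndex_fixingSubgroup F
  have hfinQ : Finite (GQ ⧸ F.fixingSubgroup) := inferInstance
  have hfinD : Finite (DualNumber k) := inferInstanceAs (Finite (k × k))
  let J : X → (GQ ⧸ F.fixingSubgroup → Matrix (Fin 2) (Fin 2) (DualNumber k)) :=
    fun x q => toMat (f x) (b x) (Quotient.out q)
  have hred : ∀ x (σ : GQ), toMat (f x) (b x) σ =
      toMat (f x) (b x) (Quotient.out (QuotientGroup.mk σ : GQ ⧸ F.fixingSubgroup)) := by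
    intro x σ
    have h2 : (Quotient.out (QuotientGroup.mk σ : GQ ⧸ F.fixingSubgroup))⁻¹ * σ ∈
        F.fixingSubgroup := by
      rw [← QuotientGroup.eq, QuotientGroup.out_eq']
    have h3 := htriv x _ h2
    rw [map_mul] at h3
    have h4 : toMat (f x) (b x) (Quotient.out (QuotientGroup.mk σ : GQ ⧸ F.fixingSubgroup)) *
        (toMat (f x) (b x) (Quotient.out (QuotientGroup.mk σ : GQ ⧸ F.fixingSubgroup))⁻¹ *
          toMat (f x) (b x) σ) =
        toMat (f x) (b x) (Quotient.out (QuotientGroup.mk σ : GQ ⧸ F.fixingSubgroup)) * 1 := by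
      rw [h3]
    rw [← mul_assoc, ← map_mul, mul_inv_cancel, map_one, one_mul, mul_one] at h4
    exact h4
  have hJ : ∀ x y, J x = J y → (f x).IsEquiv (f y) := by
    intro x y hxy
    refine kf_isEquiv_of_toMat_eq (f x) (f y) (b x) (b y) ?_
    apply MonoidHom.ext
    intro σ
    rw [hred x σ, hred y σ]
    exact congrFun hxy (QuotientGroup.mk σ)
  have hfinT : Finite (GQ ⧸ F.fixingSubgroup → Matrix (Fin 2) (Fin 2) (DualNumber k)) :=
    inferInstance
  refine Finite.of_injective (fun a : Quotient s => J (Quotient.out a)) ?_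
  intro a a' h
  have h1 := hs _ _ (hJ _ _ h)
  rw [← Quotient.out_eq a, ← Quotient.out_eq a']
  exact Quotient.sound h1

end Quotient

end Fermat.Agent.KFin
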