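/-
Cluster J (S59), J3t: finiteness of the tangent space.  PROVED (owner: helper29).
Route: a deformation `ρ` to `k[ε]` of `ρbar` unramified outside `S` restricts on `H = ker ρbar` to a
homomorphism into an elementary abelian `p`-group with open kernel containing the inertia groups
outside `S`; by Kummer theory over `E(ζ_p)`, `E` the field cut out by `ρbar`
(`Fermat.Agent.KFin.kfin`), all such `ρ` are trivial on one open subgroup `Gal(ℚ̄/F)`; as `k[ε]`
is finite there are finitely many matrix representations of `G_ℚ / Gal(ℚ̄/F)`.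
-/
import Fermat.Agent.S59.Conditions
import Fermat.Agent.S59.DefCond.TangentAux

set_option autoImplicit false

namespace Fermat.Agent.S59

theorem tangentFinite_of_unramified_outside (𝒪 : Type) [CommRing 𝒪] [IsLocalRing 𝒪]
    [Finite (IsLocalRing.ResidueField 𝒪)]
    (ρbar : ResidualGaloisRep (IsLocalRing.ResidueField 𝒪)) (S : Finset ℕ)
    (𝒟 : ∀ ⦃A : Type⦄ [CommRing A] [IsLocalRing A] [Algebra 𝒪 A], GaloisRepAdic A → Prop)
    (h𝒟 : ∀ ⦃A : Type⦄ [CommRing A] [IsLocalRing A] [Algebra 𝒪 A] (ρ : GaloisRepAdic A),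
      𝒟 ρ → ∀ q : ℕ, q.Prime → q ∉ S → ρ.IsUnramifiedAt q) :
    GaloisRep.TangentFinite 𝒪 ρbar 𝒟 := by
  unfold GaloisRep.TangentFinite
  exact Fermat.Agent.KFin.kf_finite_quotient
    ((IsLocalRing.residue (DualNumber (IsLocalRing.ResidueField 𝒪))).comp
      (algebraMap (IsLocalRing.ResidueField 𝒪) (DualNumber (IsLocalRing.ResidueField 𝒪))))
    ρbar S (fun x => x.1)
    (fun x => @h𝒟 _ _ _ (((algebraMap (IsLocalRing.ResidueField 𝒪)
      (DualNumber (IsLocalRing.ResidueField 𝒪))).comp
        (algebraMap 𝒪 (IsLocalRing.ResidueField 𝒪))).toAlgebra) x.1 x.2.1)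
    (fun x => x.2.2) _ (fun _ _ h => h)

end Fermat.Agent.S59
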