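/-
Cluster J (S59), J3c: "unipotent inertia at the primes of `Smin` other than `p`" is a deformation
condition.  Owner: helper77.  (`charpoly` commutes with base change; equalities of polynomials
descend along injections and fibre products; Krull's intersection theorem coefficientwise.)
-/
import Mathlib
import Fermat.Agent.S59.Conditions
import Fermat.Agent.S59.DefCond.TestQuot

set_option autoImplicit false
set_option linter.unusedSectionVars false
set_option linter.style.haveILetI false

namespace Fermat.Agent.S59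

open IsLocalRing GaloisRep Polynomial

local notation "Γℚ" => (AlgebraicClosure ℚ ≃ₐ[ℚ] AlgebraicClosure ℚ)

/-- The characteristic polynomial commutes with `baseChangeAlong`. -/
theorem unipCond_charpoly_baseChangeAlong {A B : Type} [CommRing A] [IsLocalRing A] [CommRing B]
    [IsLocalRing B] (φ : A →+* B) (hφ : IsLocalHom φ) (ρ : GaloisRepAdic A) (σ : Γℚ) :
    LinearMap.charpoly ((ρ.baseChangeAlong φ hφ).ρ σ) = (LinearMap.charpoly (ρ.ρ σ)).map φ := by
  letI : Algebra A B := φ.toAlgebra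
  exact LinearMap.charpoly_baseChange (A := B) (ρ.ρ σ)

/-- The characteristic polynomial is invariant under equivalence. -/
theorem unipCond_charpoly_of_equiv {A : Type} [CommRing A] [IsLocalRing A]
    {ρ ρ' : GaloisRepAdic A} (e : GaloisRepAdic.Equiv ρ ρ') (σ : Γℚ) :
    LinearMap.charpoly (ρ'.ρ σ) = LinearMap.charpoly (ρ.ρ σ) := by
  have h : ρ'.ρ σ = e.toLinearEquiv.conj (ρ.ρ σ) := by
    refine LinearMap.ext fun y => ?_
    rw [LinearEquiv.conj_apply]
    simp only [LinearMap.comp_apply, LinearEquiv.coe_coe]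
    rw [e.map_apply, LinearEquiv.apply_symm_apply]
  rw [h, LinearEquiv.charpoly_conj]

/-- `(X - 1)^2` is preserved by `Polynomial.map`. -/
theorem unipCond_map_sq {A B : Type} [CommRing A] [CommRing B] (φ : A →+* B) :
    ((X - 1 : A[X]) ^ 2).map φ = (X - 1 : B[X]) ^ 2 := by
  simp

/-- Base change of unipotency of a single element. -/
theorem unipCond_baseChangeAlong {A B : Type} [CommRing A] [IsLocalRing A] [CommRing B]
    [IsLocalRing B] (φ : A →+* B) (hφ : IsLocalHom φ) {ρ : GaloisRepAdic A} {σ : Γℚ}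
    (h : LinearMap.charpoly (ρ.ρ σ) = (X - 1) ^ 2) :
    LinearMap.charpoly ((ρ.baseChangeAlong φ hφ).ρ σ) = (X - 1) ^ 2 := by
  rw [unipCond_charpoly_baseChangeAlong, h, unipCond_map_sq]

/-- Injective descent of unipotency of a single element. -/
theorem unipCond_of_baseChangeAlong_injective {A B : Type} [CommRing A] [IsLocalRing A]
    [CommRing B] [IsLocalRing B] (φ : A →+* B) (hφ : IsLocalHom φ) (hinj : Function.Injective φ)
    {ρ : GaloisRepAdic A} {σ : Γℚ}
    (h : LinearMap.charpoly ((ρ.baseChangeAlong φ hφ).ρ σ) = (X - 1) ^ 2) :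
    LinearMap.charpoly (ρ.ρ σ) = (X - 1) ^ 2 := by
  apply Polynomial.map_injective φ hinj
  rw [← unipCond_charpoly_baseChangeAlong φ hφ, h, unipCond_map_sq]

/-- Descent of unipotency of a single element to a fibre product. -/
theorem unipCond_of_fibreProduct {A B P : Type} [CommRing A] [IsLocalRing A]
    [CommRing B] [IsLocalRing B] [CommRing P] [IsLocalRing P] (pA : P →+* A) (pB : P →+* B)
    (hpA : IsLocalHom pA) (hpB : IsLocalHom pB)
    (hinj : Function.Injective (fun x => (pA x, pB x)))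
    {ρ : GaloisRepAdic P} {σ : Γℚ}
    (h1 : LinearMap.charpoly ((ρ.baseChangeAlong pA hpA).ρ σ) = (X - 1) ^ 2)
    (h2 : LinearMap.charpoly ((ρ.baseChangeAlong pB hpB).ρ σ) = (X - 1) ^ 2) :
    LinearMap.charpoly (ρ.ρ σ) = (X - 1) ^ 2 := by
  rw [unipCond_charpoly_baseChangeAlong, ← unipCond_map_sq pA] at h1
  rw [unipCond_charpoly_baseChangeAlong, ← unipCond_map_sq pB] at h2
  refine Polynomial.ext fun n => hinj ?_
  have e1 := congrArg (fun f => f.coeff n) h1
  have e2 := congrArg (fun f => f.coeff n) h2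
  simp only [Polynomial.coeff_map] at e1 e2
  exact Prod.ext e1 e2

/-- Krull: unipotency of a single element modulo all `𝔪^k` implies unipotency. -/
theorem unipCond_of_forall_quotient {A : Type} [CommRing A] [IsLocalRing A] [IsNoetherianRing A]
    {ρ : GaloisRepAdic A} {σ : Γℚ}
    (h : ∀ k : ℕ, k ≠ 0 → (LinearMap.charpoly (ρ.ρ σ)).map (Ideal.Quotient.mk (maximalIdeal A ^ k))
      = (X - 1) ^ 2) :
    LinearMap.charpoly (ρ.ρ σ) = (X - 1) ^ 2 := by
  refine Polynomial.ext fun n => ?_
  rw [← sub_eq_zero]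
  refine TestQuot.eq_zero_of_forall_mem_pow A fun k => ?_
  rcases Nat.eq_zero_or_pos k with rfl | hk
  · rw [pow_zero, Ideal.one_eq_top]
    exact Submodule.mem_top
  · have e := congrArg (fun f => f.coeff n) (h k hk.ne')
    rw [← unipCond_map_sq (Ideal.Quotient.mk (maximalIdeal A ^ k))] at e
    simp only [Polynomial.coeff_map] at e
    rw [← Ideal.Quotient.eq_zero_iff_mem, map_sub, sub_eq_zero]
    exact e

theorem condUnip_isDeformationCondition (𝒪 : Type) [CommRing 𝒪] [IsLocalRing 𝒪]
    (p : ℕ) (Smin : Finset ℕ) :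
    GaloisRep.IsDeformationCondition 𝒪 (condUnip 𝒪 p Smin) where
  of_isEquiv := by
    intro A _ _ _ _ ρ ρ' he hρ q hq hqp hqne P hP σ hσ
    obtain ⟨e⟩ := he
    rw [unipCond_charpoly_of_equiv e]
    exact hρ q hq hqp hqne P hP σ hσ
  baseChangeAlong := by
    intro A B _ _ _ _ _ _ _ _ φ hφ ρ hρ q hq hqp hqne P hP σ hσ
    exact unipCond_baseChangeAlong (φ : A →+* B) hφ (hρ q hq hqp hqne P hP σ hσ)
  of_baseChangeAlong_injective := by
    intro A B _ _ _ _ _ _ _ _ φ hφ hinj ρ hρ q hq hqp hqne P hP σ hσ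
    exact unipCond_of_baseChangeAlong_injective (φ : A →+* B) hφ hinj
      (hρ q hq hqp hqne P hP σ hσ)
  of_fibreProduct := by
    intro A B C P _ _ _ _ _ _ _ _ _ _ _ _ _ _ _ _ f g pA pB hpA hpB _ hinj _ ρ h1 h2
      q hq hqp hqne P' hP σ hσ
    exact unipCond_of_fibreProduct (pA : P →+* A) (pB : P →+* B) hpA hpB hinj
      (h1 q hq hqp hqne P' hP σ hσ) (h2 q hq hqp hqne P' hP σ hσ)
  iff_forall_surjective := by
    intro A _ _ _ _ _ hloc hres ρ
    constructor
    · intro hρ B _ _ _ _ φ hφ _ q hq hqp hqne P hP σ hσ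
      exact unipCond_baseChangeAlong (φ : A →+* B) hφ (hρ q hq hqp hqne P hP σ hσ)
    · intro H q hq hqp hqne P hP σ hσ
      refine unipCond_of_forall_quotient fun k hk => ?_
      have hne : maximalIdeal A ^ k ≠ ⊤ := TestQuot.maximalIdeal_pow_ne_top A hk
      haveI : IsLocalRing (A ⧸ maximalIdeal A ^ k) := TestQuot.isLocalRing_quotient A _ hne
      haveI : Nontrivial (A ⧸ maximalIdeal A ^ k) := Ideal.Quotient.nontrivial_iff.mpr hne
      have hT : IsArtinianTestAlgebra 𝒪 (A ⧸ maximalIdeal A ^ k) :=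
        TestQuot.isArtinianTestAlgebra_quotient A hloc hres _ hne le_rfl
      have hq' : IsLocalHom ((Ideal.Quotient.mkₐ 𝒪 (maximalIdeal A ^ k) :
          A →ₐ[𝒪] A ⧸ maximalIdeal A ^ k) : A →+* A ⧸ maximalIdeal A ^ k) :=
        TestQuot.isLocalHom_mk A _
      have h := H hT (Ideal.Quotient.mkₐ 𝒪 (maximalIdeal A ^ k)) hq'
        (Ideal.Quotient.mkₐ_surjective 𝒪 _) q hq hqp hqne P hP σ hσ
      rw [unipCond_charpoly_baseChangeAlong] at h
      exact h

end Fermat.Agent.S59
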