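/-
Cluster J (S59), J3b: "unramified outside `S`" is a deformation condition.  Owner: helper10.

More generally, for any set `T` of Galois elements, "`ρ σ = 1` for all `σ ∈ T`" is a deformation
condition (`isDeformationCondition_trivialOn`).  The descent axioms all follow from one
coordinate computation: if `f.baseChange B = 1` along `φ : A → B` then `φ` kills the coordinates of
`f v - v` in any basis (`unr_coord_of_baseChange_eq_one`).
-/
import Fermat.Agent.S59.Conditions
import Fermat.Agent.S59.DefCond.TestQuot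

set_option autoImplicit false
set_option linter.style.haveILetI false

namespace Fermat.Agent.S59

open IsLocalRing TensorProduct

/-- If the base change of `f` along `φ` is the identity, then `φ` kills all coordinates of
`f v - v`. -/
theorem unr_coord_of_baseChange_eq_one {A B : Type} [CommRing A] [CommRing B] (φ : A →+* B)
    {V : Type} [AddCommGroup V] [Module A V] {ι : Type} (b : Module.Basis ι A V)
    (f : Module.End A V)
    (h : letI : Algebra A B := φ.toAlgebra; f.baseChange B = 1) (v : V) (i : ι) :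
    φ (b.repr (f v - v) i) = 0 := by
  letI : Algebra A B := φ.toAlgebra
  have h1 : (1 : B) ⊗ₜ[A] (f v - v) = 0 := by
    have h2 := congrArg (fun g : Module.End B (B ⊗[A] V) => g ((1 : B) ⊗ₜ[A] v)) h
    simp only [LinearMap.baseChange_tmul, Module.End.one_apply] at h2
    rw [TensorProduct.tmul_sub, h2, sub_self]
  have h3 := congrArg (fun w => (b.baseChange B).repr w i) h1
  simp only [Module.Basis.baseChange_repr_tmul, map_zero, Finsupp.coe_zero, Pi.zero_apply] at h3
  rw [Algebra.smul_def, mul_one] at h3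
  exact h3

/-- An endomorphism all of whose `f v - v` have zero coordinates is the identity. -/
theorem unr_eq_one_of_coord {A : Type} [CommRing A]
    {V : Type} [AddCommGroup V] [Module A V] {ι : Type} (b : Module.Basis ι A V)
    (f : Module.End A V) (h : ∀ v i, b.repr (f v - v) i = 0) : f = 1 := by
  refine LinearMap.ext fun v => ?_
  rw [Module.End.one_apply, ← sub_eq_zero]
  apply b.repr.injective
  rw [map_zero]
  exact Finsupp.ext fun i => h v i

/-- The condition "`ρ σ = 1` for all `σ ∈ T`". -/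
def condTrivialOn (𝒪 : Type) [CommRing 𝒪]
    (T : Set (AlgebraicClosure ℚ ≃ₐ[ℚ] AlgebraicClosure ℚ)) :
    ∀ ⦃A : Type⦄ [CommRing A] [IsLocalRing A] [Algebra 𝒪 A], GaloisRepAdic A → Prop :=
  fun _A _ _ _ ρ => ∀ σ ∈ T, ρ.ρ σ = 1

/-- Triviality at `σ` is preserved by base change. -/
theorem condTrivialOn_baseChangeAlong {A B : Type} [CommRing A] [IsLocalRing A]
    [CommRing B] [IsLocalRing B] (φ : A →+* B) (hφ : IsLocalHom φ) (ρ : GaloisRepAdic A)
    (σ : AlgebraicClosure ℚ ≃ₐ[ℚ] AlgebraicClosure ℚ) (h : ρ.ρ σ = 1) :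
    (ρ.baseChangeAlong φ hφ).ρ σ = 1 := by
  letI : Algebra A B := φ.toAlgebra
  show (ρ.ρ σ).baseChange B = 1
  rw [h, LinearMap.baseChange_one]

/-- If the base change of `ρ` along `φ` is trivial at `σ`, then `φ` kills the coordinates of
`ρ σ v - v`. -/
theorem condTrivialOn_coord {A B : Type} [CommRing A] [IsLocalRing A]
    [CommRing B] [IsLocalRing B] (φ : A →+* B) (hφ : IsLocalHom φ) (ρ : GaloisRepAdic A)
    (σ : AlgebraicClosure ℚ ≃ₐ[ℚ] AlgebraicClosure ℚ)
    (h : (ρ.baseChangeAlong φ hφ).ρ σ = 1) (v : ρ.V)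
    (i : Module.Free.ChooseBasisIndex A ρ.V) :
    φ ((Module.Free.chooseBasis A ρ.V).repr (ρ.ρ σ v - v) i) = 0 :=
  unr_coord_of_baseChange_eq_one φ (Module.Free.chooseBasis A ρ.V) (ρ.ρ σ) h v i

/-- "`ρ σ = 1` for all `σ ∈ T`" is a deformation condition. -/
theorem isDeformationCondition_trivialOn (𝒪 : Type) [CommRing 𝒪] [IsLocalRing 𝒪]
    (T : Set (AlgebraicClosure ℚ ≃ₐ[ℚ] AlgebraicClosure ℚ)) :
    GaloisRep.IsDeformationCondition 𝒪 (condTrivialOn 𝒪 T) where
  of_isEquiv := by
    intro A _ _ _ _ ρ ρ' ⟨e⟩ hρ σ hσ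
    refine LinearMap.ext fun y => ?_
    obtain ⟨x, rfl⟩ := e.toLinearEquiv.surjective y
    rw [← e.map_apply, hρ σ hσ, Module.End.one_apply, Module.End.one_apply]
  baseChangeAlong := by
    intro A B _ _ _ _ _ _ _ _ φ hφ ρ hρ σ hσ
    exact condTrivialOn_baseChangeAlong _ hφ ρ σ (hρ σ hσ)
  of_baseChangeAlong_injective := by
    intro A B _ _ _ _ _ _ _ _ φ hφ hinj ρ hρ σ hσ
    refine unr_eq_one_of_coord (Module.Free.chooseBasis A ρ.V) _ fun v i => ?_
    have h := condTrivialOn_coord _ hφ ρ σ (hρ σ hσ) v i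
    apply hinj
    rw [map_zero]
    exact h
  of_fibreProduct := by
    intro A B C P _ _ _ _ _ _ _ _ _ _ _ _ _ _ _ _ f g pA pB hpA hpB _ hinj _ ρ h1 h2 σ hσ
    refine unr_eq_one_of_coord (Module.Free.chooseBasis P ρ.V) _ fun v i => ?_
    have hA := condTrivialOn_coord _ hpA ρ σ (h1 σ hσ) v i
    have hB := condTrivialOn_coord _ hpB ρ σ (h2 σ hσ) v i
    apply hinj
    show (pA _, pB _) = (pA 0, pB 0)
    rw [map_zero, map_zero]
    exact Prod.ext hA hB
  iff_forall_surjective := by
    intro A _ _ _ _ _ hloc hres ρ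
    constructor
    · intro hρ B _ _ _ _ q hq _ σ hσ
      exact condTrivialOn_baseChangeAlong _ hq ρ σ (hρ σ hσ)
    · intro H σ hσ
      refine unr_eq_one_of_coord (Module.Free.chooseBasis A ρ.V) _ fun v i => ?_
      refine TestQuot.eq_zero_of_forall_mem_pow A fun n => ?_
      rcases Nat.eq_zero_or_pos n with rfl | hn
      · rw [pow_zero, Ideal.one_eq_top]; exact Submodule.mem_top
      · have hne : maximalIdeal A ^ n ≠ ⊤ := TestQuot.maximalIdeal_pow_ne_top A hn.ne'
        haveI : IsLocalRing (A ⧸ maximalIdeal A ^ n) := TestQuot.isLocalRing_quotient A _ hne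
        have hB : GaloisRep.IsArtinianTestAlgebra 𝒪 (A ⧸ maximalIdeal A ^ n) :=
          TestQuot.isArtinianTestAlgebra_quotient A hloc hres _ hne le_rfl
        have hq : IsLocalHom ((Ideal.Quotient.mkₐ 𝒪 (maximalIdeal A ^ n) :
            A →ₐ[𝒪] A ⧸ maximalIdeal A ^ n) : A →+* A ⧸ maximalIdeal A ^ n) :=
          TestQuot.isLocalHom_mk A _
        have h := H hB (Ideal.Quotient.mkₐ 𝒪 (maximalIdeal A ^ n)) hq
          (Ideal.Quotient.mkₐ_surjective 𝒪 _) σ hσ
        have h' := condTrivialOn_coord _ hq ρ σ h v i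
        exact Ideal.Quotient.eq_zero_iff_mem.mp h'

theorem condUnr_isDeformationCondition (𝒪 : Type) [CommRing 𝒪] [IsLocalRing 𝒪]
    (S : Finset ℕ) :
    GaloisRep.IsDeformationCondition 𝒪 (condUnr 𝒪 S) := by
  refine isDeformationCondition_congr (𝒟 := condTrivialOn 𝒪
    {σ | ∃ q : ℕ, q.Prime ∧ q ∉ S ∧ ∃ P : ValuationSubring (AlgebraicClosure ℚ),
      P.LiesOverPrime q ∧ σ ∈ P.inertiaSubgroupIn ℚ}) ?_
    (isDeformationCondition_trivialOn 𝒪 _)
  intro A _ _ _ ρ
  constructor
  · intro h q hq hqS P hP σ hσ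
    exact h σ ⟨q, hq, hqS, P, hP, hσ⟩
  · rintro h σ ⟨q, hq, hqS, P, hP, hσ⟩
    exact h q hq hqS P hP σ hσ

end Fermat.Agent.S59
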