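/-
Cluster J (S59), J3 assembly: the Taylor-Wiles deformation conditions are deformation conditions
with finite tangent space, hence (S53) universal deformation rings exist.  Owner: helper60.
-/
import Fermat.Agent.S59.DefCond.Det
import Fermat.Agent.S59.DefCond.Unr
import Fermat.Agent.S59.DefCond.Unip
import Fermat.Agent.S59.DefCond.StrictOrd
import Fermat.Agent.S59.DefCond.Flat
import Fermat.Agent.S59.DefCond.Tangent
import Fermat.Agent.S53

set_option autoImplicit false

namespace Fermat.Agent.S59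

variable (𝒪 : Type) [CommRing 𝒪] [IsLocalRing 𝒪] (p : ℕ) [Fact p.Prime] (Smin Q : Finset ℕ)

theorem condSO_isDeformationCondition (hp2 : p ≠ 2) :
    GaloisRep.IsDeformationCondition 𝒪 (condSO 𝒪 p Smin Q) :=
  condSO_isDeformationCondition_of (condDet_isDeformationCondition 𝒪 p)
    (condStrictOrd_isDeformationCondition 𝒪 p hp2) (condUnr_isDeformationCondition 𝒪 _)
    (condUnip_isDeformationCondition 𝒪 p Smin)

theorem condFl_isDeformationCondition [Finite (IsLocalRing.ResidueField 𝒪)] :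
    GaloisRep.IsDeformationCondition 𝒪 (condFl 𝒪 p Smin Q) :=
  condFl_isDeformationCondition_of (condDet_isDeformationCondition 𝒪 p)
    (condFlat_isDeformationCondition 𝒪 p) (condUnr_isDeformationCondition 𝒪 _)
    (condUnip_isDeformationCondition 𝒪 p Smin)

theorem condSO_tangentFinite [Finite (IsLocalRing.ResidueField 𝒪)]
    (ρbar : ResidualGaloisRep (IsLocalRing.ResidueField 𝒪)) :
    GaloisRep.TangentFinite 𝒪 ρbar (condSO 𝒪 p Smin Q) :=
  tangentFinite_of_unramified_outside 𝒪 ρbar (Smin ∪ Q) _ fun _ _ _ _ _ hρ => hρ.1.2.2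

theorem condFl_tangentFinite [Finite (IsLocalRing.ResidueField 𝒪)]
    (ρbar : ResidualGaloisRep (IsLocalRing.ResidueField 𝒪)) :
    GaloisRep.TangentFinite 𝒪 ρbar (condFl 𝒪 p Smin Q) :=
  tangentFinite_of_unramified_outside 𝒪 ρbar (Smin ∪ Q) _ fun _ _ _ _ _ hρ => hρ.1.2.2

end Fermat.Agent.S59

namespace Fermat.Agent.S59

variable (𝒪 : Type) [CommRing 𝒪] [IsDomain 𝒪] [IsDiscreteValuationRing 𝒪]
  [IsAdicComplete (IsLocalRing.maximalIdeal 𝒪) 𝒪] [Finite (IsLocalRing.ResidueField 𝒪)]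
  (p : ℕ) [Fact p.Prime] (Smin Q : Finset ℕ)

/-- Existence of the strict-ordinary Taylor-Wiles deformation rings. -/
theorem nonempty_deformationRingData_condSO (hp2 : p ≠ 2)
    (ρbar : ResidualGaloisRep (IsLocalRing.ResidueField 𝒪))
    (habs : ρbar.IsAbsolutelyIrreducible)
    (hbar : condSO 𝒪 p Smin Q (GaloisRepAdic.ofResidualGaloisRep ρbar)) :
    Nonempty (GaloisRep.DeformationRingData 𝒪 ρbar (condSO 𝒪 p Smin Q)) :=
  Fermat.Agent.S53.result 𝒪 ρbar _ habs (condSO_isDeformationCondition 𝒪 p Smin Q hp2) hbar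
    (condSO_tangentFinite 𝒪 p Smin Q ρbar)

/-- Existence of the flat Taylor-Wiles deformation rings. -/
theorem nonempty_deformationRingData_condFl
    (ρbar : ResidualGaloisRep (IsLocalRing.ResidueField 𝒪))
    (habs : ρbar.IsAbsolutelyIrreducible)
    (hbar : condFl 𝒪 p Smin Q (GaloisRepAdic.ofResidualGaloisRep ρbar)) :
    Nonempty (GaloisRep.DeformationRingData 𝒪 ρbar (condFl 𝒪 p Smin Q)) :=
  Fermat.Agent.S53.result 𝒪 ρbar _ habs (condFl_isDeformationCondition 𝒪 p Smin Q) hbar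
    (condFl_tangentFinite 𝒪 p Smin Q ρbar)

end Fermat.Agent.S59
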